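/-
S55 (Poitou–Tate), package C1, leaf C1-d (helper55): dévissage from cyclic layers of prime order
to an arbitrary finite group, in degrees 1 and 2.

The two statements of the package specification are proved here from

* Mathlib's inflation–restriction sequence in degree 1 (`groupCohomology.H1InfRes_exact`),
* the degree 2 inflation–restriction exactness (leaf C1-c), consumed as the hypothesis
  `H2InfResExactAt A`,
* the Sylow corollaries of restriction–corestriction (leaf C1-b), consumed as the hypotheses
  `hb` below, in exactly the shape of the specification.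
-/
import Mathlib

set_option autoImplicit false

universe u

open CategoryTheory groupCohomology Rep

namespace Fermat.Agent.S55.H55

variable {k G : Type u} [CommRing k] [Group G]

/-- Transport of cohomology along the group isomorphism `N ≃* N.map H.subtype`, for
subgroups `N ≤ H ≤ G`. -/
noncomputable def resResIso (A : Rep k G) (H : Subgroup G) (N : Subgroup H) (n : ℕ) :
    groupCohomology (res N.subtype (res H.subtype A)) n ≅
      groupCohomology (res (N.map H.subtype).subtype A) n :=
  groupCohomology.mapIso (N.equivMapOfInjective H.subtype H.subtype_injective)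
    (LinearEquiv.refl k A.V) (fun _ => by rfl) n

/-- In a group of order `p ^ (m + 1)` there is a normal subgroup of order `p ^ m`, and the
quotient has prime order. -/
theorem exists_normal_card_pow (p : ℕ) [Fact p.Prime] {H : Type*} [Group H] {m : ℕ}
    (hH : Nat.card H = p ^ (m + 1)) :
    ∃ N : Subgroup H, N.Normal ∧ Nat.card N = p ^ m ∧ (Nat.card (H ⧸ N)).Prime := by
  have hp : p.Prime := Fact.out
  have : Finite H := Nat.finite_of_card_ne_zero (by rw [hH]; exact pow_ne_zero _ hp.ne_zero)
  obtain ⟨N, hN⟩ := Sylow.exists_subgroup_card_pow_prime (G := H) p (n := m)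
    (by rw [hH]; exact pow_dvd_pow _ (Nat.le_succ m))
  have hidx : N.index = p := by
    have h := N.card_mul_index
    rw [hN, hH, pow_succ] at h
    exact Nat.eq_of_mul_eq_mul_left (pow_pos hp.pos _) h
  have hminFac : (Nat.card H).minFac = p := by
    rw [hH]; exact hp.pow_minFac (Nat.succ_ne_zero m)
  refine ⟨N, Subgroup.normal_of_index_eq_minFac_card (by rw [hidx, hminFac]), hN, ?_⟩
  rw [← Subgroup.index_eq_card, hidx]
  exact hp

/-- **Degree 1, `p`-subgroups.** -/
theorem isZero_H1_of_card_pow (A : Rep k G)
    (h : ∀ (H : Subgroup G) (N : Subgroup H) [N.Normal], (Nat.card (H ⧸ N)).Prime →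
      Limits.IsZero (groupCohomology ((res H.subtype A).quotientToInvariants N) 1))
    (p : ℕ) [Fact p.Prime] : ∀ (m : ℕ) (H : Subgroup G), Nat.card H = p ^ m →
      Limits.IsZero (groupCohomology (res H.subtype A) 1) := by
  intro m
  induction m with
  | zero =>
    intro H hH
    have : Subsingleton H := (Nat.card_eq_one_iff_unique.mp (by simpa using hH)).1
    exact isZero_groupCohomology_succ_of_subsingleton _ 0
  | succ m ih =>
    intro H hH
    obtain ⟨N, hNn, hN, hprime⟩ := exists_normal_card_pow p hH
    have h1 := h H N hprime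
    have h3 : Limits.IsZero (groupCohomology (res N.subtype (res H.subtype A)) 1) :=
      (ih (N.map H.subtype)
        (by rw [Subgroup.card_map_of_injective H.subtype_injective, hN])).of_iso
        (resResIso A H N 1)
    exact (H1InfRes_exact (res H.subtype A) N).isZero_X₂ (h1.eq_of_src _ _) (h3.eq_of_tgt _ _)

/-- **C1-d (degree 1), conditional on the Sylow corollary of C1-b** (hypothesis `hb`, in the
shape of the specification). -/
theorem isZero_H1_of_prime_layers_of [Finite G] (A : Rep k G)
    (hb : (∀ p : ℕ, p.Prime → ∃ S : Subgroup G, ¬ p ∣ S.index ∧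
        Limits.IsZero (groupCohomology (res S.subtype A) 1)) →
      Limits.IsZero (groupCohomology A 1))
    (h : ∀ (H : Subgroup G) (N : Subgroup H) [N.Normal], (Nat.card (H ⧸ N)).Prime →
      Limits.IsZero (groupCohomology ((res H.subtype A).quotientToInvariants N) 1)) :
    Limits.IsZero (groupCohomology A 1) := by
  refine hb fun p hp => ?_
  have := Fact.mk hp
  obtain ⟨P⟩ : Nonempty (Sylow p G) := inferInstance
  exact ⟨P, P.not_dvd_index, isZero_H1_of_card_pow A h p _ P P.card_eq_multiplicity⟩

/-- Counting in a sequence of abelian groups that is exact in the middle. -/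
theorem natCard_dvd_of_exact {X₁ X₂ X₃ : Type*} [AddCommGroup X₁] [AddCommGroup X₂]
    [AddCommGroup X₃] (f : X₁ →+ X₂) (g : X₂ →+ X₃) (hex : ∀ x, g x = 0 → ∃ y, f y = x) :
    Nat.card X₂ ∣ Nat.card X₁ * Nat.card X₃ := by
  have h1 : Nat.card X₂ = Nat.card (X₂ ⧸ g.ker) * Nat.card g.ker :=
    AddSubgroup.card_eq_card_quotient_mul_card_addSubgroup _
  have h2 : Nat.card (X₂ ⧸ g.ker) = Nat.card g.range :=
    Nat.card_congr (QuotientAddGroup.quotientKerEquivRange g).toEquiv
  have h3 : Nat.card g.range ∣ Nat.card X₃ := AddSubgroup.card_addSubgroup_dvd_card _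
  have h4 : Nat.card g.ker ∣ Nat.card f.range :=
    AddSubgroup.card_dvd_of_le (fun x hx => by
      obtain ⟨y, rfl⟩ := hex x hx
      exact ⟨y, rfl⟩)
  have h5 : Nat.card f.range ∣ Nat.card X₁ :=
    AddSubgroup.card_dvd_of_surjective f.rangeRestrict f.rangeRestrict_surjective
  rw [h1, h2, mul_comm (Nat.card X₁)]
  exact mul_dvd_mul h3 (h4.trans h5)

/-- Linear version of `natCard_dvd_of_exact`. -/
theorem natCard_dvd_of_exact_linear {R X₁ X₂ X₃ : Type*} [Ring R] [AddCommGroup X₁]
    [AddCommGroup X₂] [AddCommGroup X₃] [Module R X₁] [Module R X₂] [Module R X₃]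
    (f : X₁ →ₗ[R] X₂) (g : X₂ →ₗ[R] X₃) (hex : ∀ x, g x = 0 → ∃ y, f y = x) :
    Nat.card X₂ ∣ Nat.card X₁ * Nat.card X₃ :=
  natCard_dvd_of_exact f.toAddMonoidHom g.toAddMonoidHom hex

/-- The exactness part of leaf C1-c (inflation–restriction in degree 2), for the subgroups of
`G`, in unbundled form: a class of `H²(H, A)` whose restriction to the normal subgroup `N` of `H`
vanishes is inflated from `H²(H ⧸ N, A^N)`, provided `H¹(N, A) = 0`. -/
def H2InfResExactAt (A : Rep k G) : Prop :=
  ∀ (H : Subgroup G) (N : Subgroup H) [N.Normal],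
    Limits.IsZero (groupCohomology (res N.subtype (res H.subtype A)) 1) →
    ∀ x : groupCohomology (res H.subtype A) 2,
      (map N.subtype (𝟙 (res N.subtype (res H.subtype A))) 2).hom x = 0 →
      ∃ y : groupCohomology ((res H.subtype A).quotientToInvariants N) 2,
        (map (QuotientGroup.mk' N)
          (ofHom <| (res H.subtype A).ρ.quotientToInvariants_lift N) 2).hom y = x

/-- **Degree 2, `p`-subgroups.** -/
theorem natCard_H2_dvd_of_card_pow (A : Rep k G) (hc : H2InfResExactAt A)
    (h1 : ∀ H : Subgroup G, Limits.IsZero (groupCohomology (res H.subtype A) 1))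
    (h2 : ∀ (H : Subgroup G) (N : Subgroup H) [N.Normal], (Nat.card (H ⧸ N)).Prime →
      Nat.card (groupCohomology ((res H.subtype A).quotientToInvariants N) 2) ∣
        Nat.card (H ⧸ N))
    (p : ℕ) [Fact p.Prime] : ∀ (m : ℕ) (H : Subgroup G), Nat.card H = p ^ m →
      Nat.card (groupCohomology (res H.subtype A) 2) ∣ Nat.card H := by
  intro m
  induction m with
  | zero =>
    intro H hH
    have : Subsingleton H := (Nat.card_eq_one_iff_unique.mp (by simpa using hH)).1
    have hz : Limits.IsZero (groupCohomology (res H.subtype A) 2) :=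
      isZero_groupCohomology_succ_of_subsingleton _ 1
    have : Subsingleton (groupCohomology (res H.subtype A) 2) :=
      ModuleCat.subsingleton_of_isZero hz
    rw [Nat.card_of_subsingleton (0 : groupCohomology (res H.subtype A) 2)]
    exact one_dvd _
  | succ m ih =>
    intro H hH
    obtain ⟨N, hNn, hN, hprime⟩ := exists_normal_card_pow p hH
    have hmap : Nat.card (N.map H.subtype) = p ^ m := by
      rw [Subgroup.card_map_of_injective H.subtype_injective, hN]
    have h3 : Limits.IsZero (groupCohomology (res N.subtype (res H.subtype A)) 1) :=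
      (h1 (N.map H.subtype)).of_iso (resResIso A H N 1)
    have hex := hc H N h3
    have hcard : Nat.card (groupCohomology (res H.subtype A) 2) ∣
        Nat.card (groupCohomology ((res H.subtype A).quotientToInvariants N) 2) *
          Nat.card (groupCohomology (res N.subtype (res H.subtype A)) 2) :=
      natCard_dvd_of_exact_linear
        (map (A := (res H.subtype A).quotientToInvariants N) (B := res H.subtype A)
          (QuotientGroup.mk' N)
          (ofHom <| (res H.subtype A).ρ.quotientToInvariants_lift N) 2).hom
        (map (A := res H.subtype A) (B := res N.subtype (res H.subtype A))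
          N.subtype (𝟙 _) 2).hom hex
    have hq := h2 H N hprime
    have hN2 : Nat.card (groupCohomology (res N.subtype (res H.subtype A)) 2) ∣ p ^ m := by
      rw [Nat.card_congr (resResIso A H N 2).toLinearEquiv.toEquiv, ← hmap]
      exact ih (N.map H.subtype) hmap
    have hHN : Nat.card H = Nat.card (H ⧸ N) * p ^ m := by
      rw [← hN]; exact Subgroup.card_eq_card_quotient_mul_card_subgroup N
    rw [hHN]
    exact hcard.trans (mul_dvd_mul hq hN2)

/-- **C1-d (degree 2), conditional on C1-c (hypothesis `hc`) and on the Sylow corollary of C1-b**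
(hypothesis `hb`, in the shape of the specification). -/
theorem natCard_H2_dvd_card_of_prime_layers_of [Finite G] (A : Rep k G)
    (hc : H2InfResExactAt A)
    (hb : (∀ p : ℕ, p.Prime → ∃ S : Subgroup G, ¬ p ∣ S.index ∧
        Nat.card (groupCohomology (res S.subtype A) 2) ∣ Nat.card S) →
      Nat.card (groupCohomology A 2) ∣ Nat.card G)
    (h1 : ∀ H : Subgroup G, Limits.IsZero (groupCohomology (res H.subtype A) 1))
    (h2 : ∀ (H : Subgroup G) (N : Subgroup H) [N.Normal], (Nat.card (H ⧸ N)).Prime →
      Nat.card (groupCohomology ((res H.subtype A).quotientToInvariants N) 2) ∣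
        Nat.card (H ⧸ N)) :
    Nat.card (groupCohomology A 2) ∣ Nat.card G := by
  refine hb fun p hp => ?_
  have := Fact.mk hp
  obtain ⟨P⟩ : Nonempty (Sylow p G) := inferInstance
  exact ⟨P, P.not_dvd_index, natCard_H2_dvd_of_card_pow A hc h1 h2 p _ P P.card_eq_multiplicity⟩

end Fermat.Agent.S55.H55
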