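/-
S55 (Poitou–Tate), package C1, leaf C1-c (helper55), second part: the degree 2
inflation–restriction sequence as a short complex, with

* `map₂_one`: the map on `H²` induced by the trivial group homomorphism is zero;
* `inf_injective`: inflation `H²(G ⧸ S, A^S) ⟶ H²(G, A)` is injective when `H¹(S, A) = 0`;
* `H2InfRes`, `H2InfRes_mono`, `H2InfRes_exact` in the shape of the package specification;
* the degree 2 dévissage of leaf C1-d with the C1-c hypothesis discharged.
-/
import Mathlib
import Fermat.Agent.S55.H55.InfRes2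
import Fermat.Agent.S55.H55.PrimeLayers

set_option autoImplicit false

universe u

open CategoryTheory groupCohomology Rep

namespace Fermat.Agent.S55.H55.InfRes2

variable {k G : Type u} [CommRing k] [Group G]

/-- The map induced on `H²` by the trivial group homomorphism is zero. -/
theorem map₂_one {H : Type u} [Group H] {A : Rep k H} {B : Rep k G}
    (φ : res (1 : G →* H) A ⟶ B) : map (1 : G →* H) φ 2 = 0 := by
  rw [← cancel_epi (H2π A), H2π_comp_map, Limits.comp_zero]
  ext x
  change H2π B (mapCocycles₂ 1 φ x) = 0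
  rw [H2π_eq_zero_iff]
  refine ⟨fun _ => φ.hom (x (1, 1)), ?_⟩
  ext ⟨g, h⟩
  have hφ := hom_comm_apply φ g (x (1, 1))
  have h1 : (res (1 : G →* H) A).ρ g (x (1, 1)) = x (1, 1) := by
    simp
  rw [h1] at hφ
  change B.ρ g (φ.hom (x (1, 1))) - φ.hom (x (1, 1)) + φ.hom (x (1, 1)) = φ.hom (x (1, 1))
  rw [← hφ]
  abel

variable (A : Rep k G) (S : Subgroup G) [S.Normal]

/-- **Inflation is injective in degree 2** when `H¹(S, A) = 0`. -/
theorem inf_injective (h1 : Limits.IsZero (groupCohomology (res S.subtype A) 1)) :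
    Function.Injective
      (map (A := A.quotientToInvariants S) (B := A) (QuotientGroup.mk' S)
        (ofHom <| A.ρ.quotientToInvariants_lift S) 2).hom := by
  classical
  rw [injective_iff_map_eq_zero]
  intro x hx
  induction x using H2_induction_on with | h F => ?_
  rw [H2π_comp_map_apply] at hx
  obtain ⟨ψ, hψ⟩ := (H2π_eq_zero_iff _).1 hx
  -- the cochain identity `dψ = inf F`
  have hd : ∀ g h : G, A.ρ g (ψ h) - ψ (g * h) + ψ g =
      ((F (QuotientGroup.mk g, QuotientGroup.mk h)) : A) := fun g h => congr_fun hψ (g, h)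
  set c : A := ((F (1, 1)) : A) with hc
  have hcinv : ∀ s ∈ S, A.ρ s c = c := fun s hs => (F (1, 1)).2 ⟨s, hs⟩
  have hF1 : ∀ s ∈ S, ∀ g : G,
      ((F (QuotientGroup.mk s, QuotientGroup.mk g)) : A) = c := by
    intro s hs g
    rw [(QuotientGroup.eq_one_iff s).2 hs, cocycles₂_map_one_fst F]
  have hF2 : ∀ s ∈ S, ∀ g : G,
      ((F (QuotientGroup.mk g, QuotientGroup.mk s)) : A) = A.ρ g c := by
    intro s hs g
    rw [(QuotientGroup.eq_one_iff s).2 hs, cocycles₂_map_one_snd F]
    rfl
  -- `ψ - c` is a 1-cocycle on `S`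
  obtain ⟨a, ha⟩ := exists_coboundary_of_isZero A S h1 (fun g => ψ g - c) (by
    intro s hs s' hs'
    have h := hd s s'
    rw [hF1 s hs s'] at h
    rw [map_sub, hcinv s hs]
    linear_combination (norm := abel) -h)
  set ψ' : G → A := fun g => ψ g - (A.ρ g a - a) with hψ'
  have hd' : ∀ g h : G, A.ρ g (ψ' h) - ψ' (g * h) + ψ' g =
      ((F (QuotientGroup.mk g, QuotientGroup.mk h)) : A) := by
    intro g h
    rw [← hd g h]
    simp only [hψ', map_sub, map_mul, Module.End.mul_apply]
    abel
  have hψ's : ∀ s ∈ S, ψ' s = c := by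
    intro s hs
    have h := ha s hs
    simp only [hψ']
    linear_combination (norm := abel) h
  have hr : ∀ g, ∀ s ∈ S, ψ' (g * s) = ψ' g := by
    intro g s hs
    have h := hd' g s
    rw [hF2 s hs g, hψ's s hs] at h
    linear_combination (norm := abel) -h
  have hinv : ∀ g, ∀ s ∈ S, A.ρ s (ψ' g) = ψ' g := by
    intro g s hs
    have h := hd' s g
    rw [hF1 s hs g, hψ's s hs] at h
    have e : s * g = g * (g⁻¹ * s * g) := by group
    rw [e, hr g _ (Subgroup.Normal.conj_mem' ‹_› _ hs _)] at h
    linear_combination (norm := abel) h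
  have hrep : ∀ g, ψ' (rep S g) = ψ' g := by
    intro g
    rw [rep_mk S g, hr _ _ (inv_mul_rep_mem S g)]
  let ψb : G ⧸ S → A.quotientToInvariants S :=
    fun x => ⟨ψ' x.out, fun s => hinv _ s.1 s.2⟩
  have hψb : ∀ g : G, ((ψb (QuotientGroup.mk g)) : A) = ψ' g := fun g => hrep g
  rw [H2π_eq_zero_iff]
  refine ⟨ψb, ?_⟩
  ext ⟨x, y⟩
  induction x using QuotientGroup.induction_on with | H g =>
  induction y using QuotientGroup.induction_on with | H h =>
  change A.ρ g ((ψb (QuotientGroup.mk h)) : A) - ((ψb (QuotientGroup.mk g * QuotientGroup.mk h)) : A)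
    + ((ψb (QuotientGroup.mk g)) : A) = ((F (QuotientGroup.mk g, QuotientGroup.mk h)) : A)
  rw [← QuotientGroup.mk_mul, hψb, hψb, hψb]
  exact hd' g h

/-- The short complex `H²(G ⧸ S, A^S) ⟶ H²(G, A) ⟶ H²(S, A)` (inflation, restriction). -/
noncomputable def H2InfRes : ShortComplex (ModuleCat k) where
  X₁ := groupCohomology (A.quotientToInvariants S) 2
  X₂ := groupCohomology A 2
  X₃ := groupCohomology (res S.subtype A) 2
  f := map (QuotientGroup.mk' S) (ofHom <| A.ρ.quotientToInvariants_lift S) 2
  g := map S.subtype (𝟙 _) 2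
  zero := by
    rw [← map_comp, Category.comp_id,
      groupCohomology.congr (QuotientGroup.mk'_comp_subtype S) (fun f φ => map f φ 2), map₂_one]

/-- If `H¹(S, A) = 0` the inflation `H²(G ⧸ S, A^S) ⟶ H²(G, A)` is a monomorphism. -/
theorem H2InfRes_mono (h1 : Limits.IsZero (groupCohomology (res S.subtype A) 1)) :
    Mono (H2InfRes A S).f := by
  rw [ModuleCat.mono_iff_injective]
  exact inf_injective A S h1

/-- If `H¹(S, A) = 0` then `H²(G ⧸ S, A^S) ⟶ H²(G, A) ⟶ H²(S, A)` is exact. -/
theorem H2InfRes_exact (h1 : Limits.IsZero (groupCohomology (res S.subtype A) 1)) :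
    (H2InfRes A S).Exact := by
  rw [ShortComplex.moduleCat_exact_iff]
  intro x hx
  exact exists_inf_eq_of_res_eq_zero A S h1 x hx

end Fermat.Agent.S55.H55.InfRes2

namespace Fermat.Agent.S55.H55

variable {k G : Type u} [CommRing k] [Group G]

/-- The C1-c hypothesis of `PrimeLayers` holds for every representation. -/
theorem h2InfResExactAt (A : Rep k G) : H2InfResExactAt A := by
  intro H N _ h1 x hx
  exact InfRes2.exists_inf_eq_of_res_eq_zero (res H.subtype A) N h1 x hx

/-- **C1-d (degree 2), conditional only on the Sylow corollary of C1-b** (hypothesis `hb`, in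
the shape of the specification). -/
theorem natCard_H2_dvd_card_of_prime_layers_of' [Finite G] (A : Rep k G)
    (hb : (∀ p : ℕ, p.Prime → ∃ S : Subgroup G, ¬ p ∣ S.index ∧
        Nat.card (groupCohomology (res S.subtype A) 2) ∣ Nat.card S) →
      Nat.card (groupCohomology A 2) ∣ Nat.card G)
    (h1 : ∀ H : Subgroup G, Limits.IsZero (groupCohomology (res H.subtype A) 1))
    (h2 : ∀ (H : Subgroup G) (N : Subgroup H) [N.Normal], (Nat.card (H ⧸ N)).Prime →
      Nat.card (groupCohomology ((res H.subtype A).quotientToInvariants N) 2) ∣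
        Nat.card (H ⧸ N)) :
    Nat.card (groupCohomology A 2) ∣ Nat.card G :=
  natCard_H2_dvd_card_of_prime_layers_of A (h2InfResExactAt A) hb h1 h2

end Fermat.Agent.S55.H55
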