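/-
Program C (S55), package C8 (B4), leaf (CLS-INV) — helper55.

For a tower `k ⊆ K ⊆ L` of fields (number fields for the idele classes), `L / K` normal,
`N = Gal(L/K) = H88.fixSubgroup k K L ≤ Gal(L/k)`:

* `semiLocalMap q K L` is injective, preserves and reflects local units, and its image is the
  ring of `Gal(L/K)`-invariants;
* `ideleMap K L : J_K →* J_L` is injective with image the `N`-invariants (`J_L^N = J_K`);
* the induced map on idele classes `C_K → C_L` is injective with image the `N`-invariants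
  (`C_L^N = C_K`, by Hilbert 90 for `L / K`);
* both are equivariant along `Gal(L/k) → Gal(K/k)`.
-/
import Mathlib
import Fermat.Agent.S55.H88.TowerData
import Fermat.Agent.S55.H88.IdeleRep

set_option autoImplicit false
set_option linter.unusedSectionVars false

open CategoryTheory

noncomputable section

namespace Fermat.Agent.S55.H55.IdeleInv

open Fermat.Agent.S55.H88

attribute [local instance] factOfPrimes

/-! ### The semi-local algebras -/

section SemiLocal

variable (q : ℕ) [Fact q.Prime] (K L : Type) [Field K] [Field L] [Algebra K L]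

theorem semiLocalMap_injective [Algebra.IsAlgebraic K L] :
    Function.Injective (semiLocalMap q K L) := by
  intro f f' h
  refine Subtype.ext (funext fun τ => ?_)
  obtain ⟨τ', rfl⟩ := exists_extend q (K := L) τ
  exact congrArg (fun F : semiLocal q L => (F : (L →+* PadicAlgCl q) → PadicAlgCl q) τ') h

/-- `(K ⊗ ℚ_q)ˣ → (L ⊗ ℚ_q)ˣ`. -/
def semiLocalUnitsMap : (semiLocal q K)ˣ →* (semiLocal q L)ˣ :=
  Units.map (semiLocalMap q K L : semiLocal q K →* semiLocal q L)

theorem coe_semiLocalUnitsMap (u : (semiLocal q K)ˣ) (τ : L →+* PadicAlgCl q) :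
    ((semiLocalUnitsMap q K L u : semiLocal q L) : (L →+* PadicAlgCl q) → PadicAlgCl q) τ =
      ((u : semiLocal q K) : (K →+* PadicAlgCl q) → PadicAlgCl q) (τ.comp (algebraMap K L)) :=
  rfl

theorem semiLocalUnitsMap_injective [Algebra.IsAlgebraic K L] :
    Function.Injective (semiLocalUnitsMap q K L) :=
  Units.map_injective (semiLocalMap_injective q K L)

theorem semiLocalUnitsMap_mem_iff [Algebra.IsAlgebraic K L] (u : (semiLocal q K)ˣ) :
    semiLocalUnitsMap q K L u ∈ semiLocalUnits q L ↔ u ∈ semiLocalUnits q K := by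
  constructor
  · intro h τ
    obtain ⟨τ', rfl⟩ := exists_extend q (K := L) τ
    exact h τ'
  · intro h τ
    exact h (τ.comp (algebraMap K L))

/-- A `Gal(L/K)`-invariant unit of `L ⊗ ℚ_q` comes from a unit of `K ⊗ ℚ_q`. -/
theorem exists_semiLocalUnitsMap_eq [Normal K L] (u : (semiLocal q L)ˣ)
    (hu : ∀ σ : L ≃ₐ[K] L, σ • (u : semiLocal q L) = u) :
    ∃ u₀ : (semiLocal q K)ˣ, semiLocalUnitsMap q K L u₀ = u := by
  have hu' : ∀ σ : L ≃ₐ[K] L, σ • ((u⁻¹ : (semiLocal q L)ˣ) : semiLocal q L) =
      ((u⁻¹ : (semiLocal q L)ˣ) : semiLocal q L) := by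
    intro σ
    have h1 : (σ • (u : semiLocal q L)) * (σ • ((u⁻¹ : (semiLocal q L)ˣ) : semiLocal q L)) = 1 := by
      rw [← smul_mul', Units.mul_inv, smul_one]
    rw [hu σ] at h1
    exact (Units.inv_eq_of_mul_eq_one_right h1).symm
  obtain ⟨f, hf⟩ := exists_semiLocalMap_eq q (k := K) (K := L) (u : semiLocal q L) hu
  obtain ⟨f', hf'⟩ := exists_semiLocalMap_eq q (k := K) (K := L)
    ((u⁻¹ : (semiLocal q L)ˣ) : semiLocal q L) hu'
  have h1 : f * f' = 1 := by
    apply semiLocalMap_injective q K L
    rw [map_mul, hf, hf', map_one, Units.mul_inv]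
  refine ⟨⟨f, f', h1, by rw [mul_comm]; exact h1⟩, Units.ext ?_⟩
  exact hf

end SemiLocal

/-! ### The ideles -/

section Idele

variable (K L : Type) [Field K] [Field L] [Algebra K L]

section

variable [Algebra.IsAlgebraic K L]

/-- `J_K →* J_L`. -/
def ideleMap : ideleGroup K →* ideleGroup L where
  toFun x := ⟨fun q => semiLocalUnitsMap (q : ℕ) K L
      ((x : ∀ q : Nat.Primes, (semiLocal (q : ℕ) K)ˣ) q),
    Set.Finite.subset x.2 fun q hq h =>
      hq ((semiLocalUnitsMap_mem_iff (q : ℕ) K L _).2 h)⟩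
  map_one' := Subtype.ext (funext fun _ => map_one _)
  map_mul' _ _ := Subtype.ext (funext fun _ => map_mul _ _ _)

theorem coe_ideleMap (x : ideleGroup K) (q : Nat.Primes) :
    ((ideleMap K L x : ideleGroup L) : ∀ q : Nat.Primes, (semiLocal (q : ℕ) L)ˣ) q =
      semiLocalUnitsMap (q : ℕ) K L ((x : ∀ q : Nat.Primes, (semiLocal (q : ℕ) K)ˣ) q) := rfl

theorem ideleMap_injective : Function.Injective (ideleMap K L) := by
  intro x y h
  refine Subtype.ext (funext fun q => ?_)
  apply semiLocalUnitsMap_injective (q : ℕ) K L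
  exact congrArg (fun z : ideleGroup L =>
    (z : ∀ q : Nat.Primes, (semiLocal (q : ℕ) L)ˣ) q) h

end

/-- An idele of `L` all of whose components are `Gal(L/K)`-invariant comes from `K`. -/
theorem exists_ideleMap_eq [Normal K L] (y : ideleGroup L)
    (hy : ∀ (σ : L ≃ₐ[K] L) (q : Nat.Primes),
      σ • (((y : ∀ q : Nat.Primes, (semiLocal (q : ℕ) L)ˣ) q : (semiLocal (q : ℕ) L)ˣ) :
        semiLocal (q : ℕ) L) = ((y : ∀ q : Nat.Primes, (semiLocal (q : ℕ) L)ˣ) q :
          (semiLocal (q : ℕ) L)ˣ)) :
    ∃ x : ideleGroup K, ideleMap K L x = y := by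
  choose x hx using fun q : Nat.Primes => exists_semiLocalUnitsMap_eq (q : ℕ) K L
    ((y : ∀ q : Nat.Primes, (semiLocal (q : ℕ) L)ˣ) q) (fun σ => hy σ q)
  refine ⟨⟨x, Set.Finite.subset y.2 fun q hq h => hq ?_⟩, Subtype.ext (funext hx)⟩
  rw [← hx q] at h
  exact (semiLocalUnitsMap_mem_iff (q : ℕ) K L _).1 h

theorem ideleMap_diag [NumberField K] [NumberField L] [Algebra.IsAlgebraic K L] (u : Kˣ) :
    ideleMap K L (ideleDiagHom K u) = ideleDiagHom L (Units.map (algebraMap K L : K →* L) u) :=
  rfl

end Idele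

/-! ### Towers `k ⊆ K ⊆ L` -/

section Tower

variable (k K L : Type) [Field k] [Field K] [Field L] [Algebra k K] [Algebra K L] [Algebra k L]
  [IsScalarTower k K L]

/-- Equivariance of `semiLocalMap` along a pair `(σ, σ̄)` of compatible automorphisms. -/
theorem smul_semiLocalMap (q : ℕ) [Fact q.Prime] (σ : L ≃ₐ[k] L) (σ' : K ≃ₐ[k] K)
    (h : ∀ x : K, σ (algebraMap K L x) = algebraMap K L (σ' x)) (f : semiLocal q K) :
    σ • semiLocalMap q K L f = semiLocalMap q K L (σ' • f) := by
  refine Subtype.ext (funext fun τ => ?_)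
  show (f : (K →+* PadicAlgCl q) → PadicAlgCl q)
      ((τ.comp ((σ : L ≃+* L) : L →+* L)).comp (algebraMap K L)) =
    (f : (K →+* PadicAlgCl q) → PadicAlgCl q)
      ((τ.comp (algebraMap K L)).comp ((σ' : K ≃+* K) : K →+* K))
  have e : (τ.comp ((σ : L ≃+* L) : L →+* L)).comp (algebraMap K L) =
      (τ.comp (algebraMap K L)).comp ((σ' : K ≃+* K) : K →+* K) :=
    RingHom.ext fun x => congrArg τ (h x)
  rw [e]

variable [Algebra.IsAlgebraic K L]

/-- Equivariance of `ideleMap` along a pair `(σ, σ̄)` of compatible automorphisms. -/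
theorem smul_ideleMap (σ : L ≃ₐ[k] L) (σ' : K ≃ₐ[k] K)
    (h : ∀ x : K, σ (algebraMap K L x) = algebraMap K L (σ' x)) (x : ideleGroup K) :
    σ • ideleMap K L x = ideleMap K L (σ' • x) :=
  Subtype.ext (funext fun q => Units.ext (smul_semiLocalMap k K L (q : ℕ) σ σ' h _))

/-- Elements of `fixSubgroup k K L` fix the ideles coming from `K`. -/
theorem smul_ideleMap_of_mem {σ : L ≃ₐ[k] L} (hσ : σ ∈ fixSubgroup k K L) (x : ideleGroup K) :
    σ • ideleMap K L x = ideleMap K L x := by
  rw [smul_ideleMap k K L σ 1 (fun x => hσ x) x, one_smul]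

end Tower

/-! ### Invariants of the ideles -/

section IdeleRep

variable (k K L : Type) [Field k] [Field K] [Field L] [Algebra k K] [Algebra K L] [Algebra k L]
  [IsScalarTower k K L] [Normal K L]

/-- `J_K → J_L` as a linear map of the underlying modules. -/
def ideleLin : (ideleRep k K).V →ₗ[ℤ] (ideleRep k L).V :=
  (MonoidHom.toAdditive (ideleMap K L)).toIntLinearMap

theorem ideleLin_apply (x : (ideleRep k K).V) :
    ideleLin k K L x = Additive.ofMul (ideleMap K L (Additive.toMul x)) := rfl

theorem ideleLin_injective : Function.Injective (ideleLin k K L) := fun _ _ h =>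
  congrArg Additive.ofMul (ideleMap_injective K L (congrArg Additive.toMul h))

/-- `J_K → (J_L)^{Gal(L/K)}`. -/
def ideleToInv : (ideleRep k K).V →ₗ[ℤ]
    Representation.invariants ((ideleRep k L).ρ.comp (fixSubgroup k K L).subtype) :=
  (ideleLin k K L).codRestrict _ fun x g =>
    congrArg Additive.ofMul (smul_ideleMap_of_mem k K L g.2 (Additive.toMul x))

theorem coe_ideleToInv (x : (ideleRep k K).V) :
    ((ideleToInv k K L x : Representation.invariants
      ((ideleRep k L).ρ.comp (fixSubgroup k K L).subtype)) : (ideleRep k L).V) =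
      ideleLin k K L x := rfl

theorem ideleToInv_bijective : Function.Bijective (ideleToInv k K L) := by
  constructor
  · intro _ _ h
    exact ideleLin_injective k K L (congrArg Subtype.val h)
  · rintro ⟨y, hy⟩
    obtain ⟨x, hx⟩ := exists_ideleMap_eq K L (Additive.toMul y) (fun σ q => by
      have h1 := hy (galToFix k K L σ)
      have h2 := congrArg (fun z : Additive (ideleGroup L) =>
        ((((Additive.toMul z : ideleGroup L) : ∀ q : Nat.Primes, (semiLocal (q : ℕ) L)ˣ) q :
          (semiLocal (q : ℕ) L)ˣ) : semiLocal (q : ℕ) L)) h1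
      exact h2)
    exact ⟨Additive.ofMul x, Subtype.ext (congrArg Additive.ofMul hx)⟩

end IdeleRep

/-! ### Invariants of the idele classes -/

theorem div_swap_aux {G : Type*} [CommGroup G] (a d y y' : G) (h : a / d = y' / y) :
    y' / a = y / d := by
  rw [div_eq_div_iff_mul_eq_mul] at h ⊢
  exact h.symm.trans (mul_comm _ _)

section ClassRep

variable (k K L : Type) [Field k] [Field K] [Field L] [Algebra k K] [Algebra K L] [Algebra k L]
  [IsScalarTower k K L] [NumberField K] [NumberField L] [IsGalois K L] [FiniteDimensional K L]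

/-- `Kˣ → Lˣ` as a linear map of the underlying modules. -/
def unitsLin : (Rep.ofAlgebraAutOnUnits k K).V →ₗ[ℤ] (Rep.ofAlgebraAutOnUnits k L).V :=
  (MonoidHom.toAdditive (Units.map (algebraMap K L : K →* L))).toIntLinearMap

theorem ideleLin_diag (u : (Rep.ofAlgebraAutOnUnits k K).V) :
    ideleLin k K L ((ideleDiag k K).hom u) = (ideleDiag k L).hom (unitsLin k K L u) := rfl

theorem idelePrincipal_le_comap_ideleLin :
    idelePrincipal k K ≤ (idelePrincipal k L).comap (ideleLin k K L) := by
  rintro _ ⟨u, rfl⟩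
  exact ⟨unitsLin k K L u, rfl⟩

/-- `C_K → C_L` as a linear map of the underlying modules. -/
def clsLin : (ideleClassRep k K).V →ₗ[ℤ] (ideleClassRep k L).V :=
  Submodule.mapQ (idelePrincipal k K) (idelePrincipal k L) (ideleLin k K L)
    (idelePrincipal_le_comap_ideleLin k K L)

theorem clsLin_mk (x : (ideleRep k K).V) :
    clsLin k K L ((ideleClassProj k K).hom x) = (ideleClassProj k L).hom (ideleLin k K L x) := rfl

/-- The diagonal embedding commutes with the Galois action. -/
theorem smul_ideleDiagHom (σ : L ≃ₐ[K] L) (u : Lˣ) :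
    (galToFix k K L σ : L ≃ₐ[k] L) • ideleDiagHom L u =
      ideleDiagHom L (Units.map (σ : L →* L) u) := rfl

theorem clsLin_injective : Function.Injective (clsLin k K L) := by
  rw [injective_iff_map_eq_zero]
  intro c hc
  obtain ⟨x, rfl⟩ := Submodule.Quotient.mk_surjective _ c
  have h1 : ideleLin k K L x ∈ idelePrincipal k L := (Submodule.Quotient.mk_eq_zero _).1 hc
  obtain ⟨u, hu⟩ := h1
  have hu' : ideleDiagHom L (Additive.toMul u) = ideleMap K L (Additive.toMul x) :=
    congrArg Additive.toMul hu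
  have hfix : ∀ σ : L ≃ₐ[K] L,
      σ ((Additive.toMul u : Lˣ) : L) = ((Additive.toMul u : Lˣ) : L) := by
    intro σ
    have h2 : (galToFix k K L σ : L ≃ₐ[k] L) • ideleDiagHom L (Additive.toMul u) =
        ideleDiagHom L (Additive.toMul u) := by
      rw [hu']
      exact smul_ideleMap_of_mem k K L (galToFix k K L σ).2 _
    rw [smul_ideleDiagHom] at h2
    exact congrArg (fun v : Lˣ => (v : L)) (ideleDiagHom_injective L h2)
  obtain ⟨e, he⟩ := (IsGalois.mem_range_algebraMap_iff_fixed (F := K) _).mpr hfix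
  have he0 : e ≠ 0 := by
    rintro rfl
    rw [map_zero] at he
    exact (Additive.toMul u : Lˣ).ne_zero he.symm
  have h5 : ideleMap K L (ideleDiagHom K (Units.mk0 e he0)) = ideleMap K L (Additive.toMul x) := by
    rw [ideleMap_diag, ← hu']
    congr 1
    exact Units.ext he
  have h6 := ideleMap_injective K L h5
  exact (Submodule.Quotient.mk_eq_zero _).2
    ⟨Additive.ofMul (Units.mk0 e he0), congrArg Additive.ofMul h6⟩

/-- `C_K → (C_L)^{Gal(L/K)}`. -/
def clsToInv : (ideleClassRep k K).V →ₗ[ℤ]
    Representation.invariants ((ideleClassRep k L).ρ.comp (fixSubgroup k K L).subtype) :=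
  (clsLin k K L).codRestrict _ fun c g => by
    obtain ⟨x, rfl⟩ := Submodule.Quotient.mk_surjective _ c
    exact congrArg (Submodule.Quotient.mk (p := idelePrincipal k L))
      (congrArg Additive.ofMul (smul_ideleMap_of_mem k K L g.2 (Additive.toMul x)))

theorem coe_clsToInv (c : (ideleClassRep k K).V) :
    ((clsToInv k K L c : Representation.invariants
      ((ideleClassRep k L).ρ.comp (fixSubgroup k K L).subtype)) : (ideleClassRep k L).V) =
      clsLin k K L c := rfl

theorem clsToInv_injective : Function.Injective (clsToInv k K L) := fun _ _ h =>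
  clsLin_injective k K L (congrArg Subtype.val h)

/-- Surjectivity of `C_K → (C_L)^{Gal(L/K)}`: Hilbert 90 for `L / K`. -/
theorem clsToInv_surjective : Function.Surjective (clsToInv k K L) := by
  rintro ⟨c, hc⟩
  obtain ⟨y, rfl⟩ := Submodule.Quotient.mk_surjective _ c
  -- the cocycle `σ ↦ σ y / y ∈ Lˣ`
  have h1 : ∀ σ : L ≃ₐ[K] L, ∃ u : Lˣ, ideleDiagHom L u =
      ((galToFix k K L σ : L ≃ₐ[k] L) • (Additive.toMul y : ideleGroup L)) /
        (Additive.toMul y : ideleGroup L) := by
    intro σ
    have h2 := hc (galToFix k K L σ)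
    have h3 : (ideleRep k L).ρ (galToFix k K L σ : L ≃ₐ[k] L) y - y ∈ idelePrincipal k L := by
      rw [← Submodule.Quotient.mk_eq_zero, Submodule.Quotient.mk_sub, sub_eq_zero]
      exact h2
    obtain ⟨u, hu⟩ := h3
    exact ⟨Additive.toMul u, congrArg Additive.toMul hu⟩
  choose f hf using h1
  have hcoc : groupCohomology.IsMulCocycle₁ f := by
    intro g h
    apply ideleDiagHom_injective L
    have e1 : ideleDiagHom L (g • f h) =
        (galToFix k K L g : L ≃ₐ[k] L) • ideleDiagHom L (f h) := rfl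
    have e2 : (galToFix k K L (g * h) : L ≃ₐ[k] L) =
        (galToFix k K L g : L ≃ₐ[k] L) * (galToFix k K L h : L ≃ₐ[k] L) := rfl
    have e3 : ideleDiagHom L (g • f h * f g) = ideleDiagHom L (g • f h) * ideleDiagHom L (f g) :=
      map_mul (ideleDiagHom L) _ _
    have e4 : (galToFix k K L (g * h) : L ≃ₐ[k] L) •
        (Additive.toMul y : ideleGroup L) = (galToFix k K L g : L ≃ₐ[k] L) •
          ((galToFix k K L h : L ≃ₐ[k] L) • (Additive.toMul y : ideleGroup L)) :=
      mul_smul (galToFix k K L g : L ≃ₐ[k] L) (galToFix k K L h : L ≃ₐ[k] L) _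
    have e5 : (galToFix k K L g : L ≃ₐ[k] L) •
        (((galToFix k K L h : L ≃ₐ[k] L) • (Additive.toMul y : ideleGroup L)) /
          (Additive.toMul y : ideleGroup L)) =
        ((galToFix k K L g : L ≃ₐ[k] L) •
          ((galToFix k K L h : L ≃ₐ[k] L) • (Additive.toMul y : ideleGroup L))) /
          ((galToFix k K L g : L ≃ₐ[k] L) • (Additive.toMul y : ideleGroup L)) :=
      smul_div' _ _ _
    have e6 : ideleDiagHom L (g • f h) =
        ((galToFix k K L g : L ≃ₐ[k] L) •
          ((galToFix k K L h : L ≃ₐ[k] L) • (Additive.toMul y : ideleGroup L))) /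
          ((galToFix k K L g : L ≃ₐ[k] L) • (Additive.toMul y : ideleGroup L)) :=
      e1.trans ((congrArg (fun z : ideleGroup L => (galToFix k K L g : L ≃ₐ[k] L) • z)
        (hf h)).trans e5)
    refine (hf (g * h)).trans (Eq.trans ?_ e3.symm)
    refine Eq.trans ?_ (congrArg₂ (· * ·) e6.symm (hf g).symm)
    refine (congrArg (fun z : ideleGroup L => z / (Additive.toMul y : ideleGroup L)) e4).trans ?_
    exact (div_mul_div_cancel _ _ _).symm
  obtain ⟨β, hβ⟩ := groupCohomology.isMulCoboundary₁_of_isMulCocycle₁_of_aut_to_units f hcoc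
  -- the corrected idele is invariant
  have hinv : ∀ σ : L ≃ₐ[K] L, (galToFix k K L σ : L ≃ₐ[k] L) •
      ((Additive.toMul y : ideleGroup L) / ideleDiagHom L β) =
        (Additive.toMul y : ideleGroup L) / ideleDiagHom L β := by
    intro σ
    have e2 : ((galToFix k K L σ : L ≃ₐ[k] L) • ideleDiagHom L β) / ideleDiagHom L β =
        ((galToFix k K L σ : L ≃ₐ[k] L) • (Additive.toMul y : ideleGroup L)) /
          (Additive.toMul y : ideleGroup L) :=
      calc ((galToFix k K L σ : L ≃ₐ[k] L) • ideleDiagHom L β) / ideleDiagHom L β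
          = ideleDiagHom L (σ • β) / ideleDiagHom L β := rfl
        _ = ideleDiagHom L (σ • β / β) := (map_div (ideleDiagHom L) _ _).symm
        _ = ideleDiagHom L (f σ) := congrArg (ideleDiagHom L) (hβ σ)
        _ = _ := hf σ
    have e3 : (galToFix k K L σ : L ≃ₐ[k] L) •
        ((Additive.toMul y : ideleGroup L) / ideleDiagHom L β) =
        ((galToFix k K L σ : L ≃ₐ[k] L) • (Additive.toMul y : ideleGroup L)) /
          ((galToFix k K L σ : L ≃ₐ[k] L) • ideleDiagHom L β) := smul_div' _ _ _
    exact e3.trans (div_swap_aux _ _ _ _ e2)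
  obtain ⟨x, hx⟩ := exists_ideleMap_eq K L ((Additive.toMul y : ideleGroup L) / ideleDiagHom L β)
    (fun σ q => by
      have h2 := congrArg (fun z : ideleGroup L =>
        (((z : ∀ q : Nat.Primes, (semiLocal (q : ℕ) L)ˣ) q : (semiLocal (q : ℕ) L)ˣ) :
          semiLocal (q : ℕ) L)) (hinv σ)
      exact h2)
  refine ⟨(ideleClassProj k K).hom (Additive.ofMul x), Subtype.ext ?_⟩
  show (ideleClassProj k L).hom (Additive.ofMul (ideleMap K L x)) = _
  rw [hx]
  have h4 : (Additive.ofMul ((Additive.toMul y : ideleGroup L) / ideleDiagHom L β) :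
      (ideleRep k L).V) = y - (ideleDiag k L).hom (Additive.ofMul β) := rfl
  rw [h4, map_sub]
  have h5 : (ideleClassProj k L).hom ((ideleDiag k L).hom (Additive.ofMul β)) = 0 :=
    (Submodule.Quotient.mk_eq_zero (idelePrincipal k L)).mpr ⟨Additive.ofMul β, rfl⟩
  rw [h5, sub_zero]
  rfl

theorem clsToInv_bijective : Function.Bijective (clsToInv k K L) :=
  ⟨clsToInv_injective k K L, clsToInv_surjective k K L⟩

end ClassRep

end Fermat.Agent.S55.H55.IdeleInv
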