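/-
S55 (Poitou–Tate), package C1 (designer helper84), leaf T-a of TATE-3 (helper55):
the connecting homomorphism `H¹(X₃) ⟶ H²(X₁)` commutes with restriction to a subgroup, and the
dimension-shift isomorphisms of `H73.DimShift` commute with restriction.
Statements VERBATIM from helper84's `TateSpec.lean`.  Mathlib + `H73.DimShift(Inv)` only.
-/
import Mathlib
import Fermat.Agent.S55.H73.DimShiftInv

set_option autoImplicit false

universe u

open CategoryTheory groupCohomology Rep

namespace Fermat.Agent.S55.H55

open Fermat.Agent.S55.H73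

variable {k G : Type u} [CommRing k] [Group G]

/-- **(T-a)** The connecting homomorphism `H¹(X₃) ⟶ H²(X₁)` commutes with restriction to a
subgroup. -/
theorem δ_res {X : ShortComplex (Rep k G)} (hX : X.ShortExact) (S : Subgroup G)
    (hXS : (X.map (resFunctor S.subtype)).ShortExact) (c : groupCohomology X.X₃ 1) :
    (δ hXS 1 2 rfl).hom ((map S.subtype (𝟙 (res S.subtype X.X₃)) 1).hom c) =
      (map S.subtype (𝟙 (res S.subtype X.X₁)) 2).hom ((δ hX 1 2 rfl).hom c) := by
  induction c using H1_induction_on with
  | h z =>
    obtain ⟨hf, hg, hzero, hex⟩ := elementwise_of_shortExact hX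
    choose y hy using fun g => hg (z g)
    have hd : ∀ p : G × G, X.g.hom (d₁₂ X.X₂ y p) = 0 := by
      rintro ⟨g, h⟩
      rw [d₁₂_hom_apply]
      simp only [map_add, map_sub, hom_comm_apply, hy]
      exact (mem_cocycles₁_def z).1 z.2 g h
    choose x hx using fun p => hex _ (hd p)
    have e1 := δ₁_apply hX z y (funext hy) x (funext hx)
    have e2 := δ₁_apply hXS (mapCocycles₁ S.subtype (𝟙 (res S.subtype X.X₃)) z)
      (fun s => y s) (funext fun s => hy s) (fun p => x (p.1, p.2))
      (funext fun p => hx (p.1, p.2))
    rw [H1π_comp_map_apply]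
    refine e2.trans ?_
    rw [e1, H2π_comp_map_apply]
    congr 1

/-- **(T-a), consumer form.**  The dimension-shift isomorphisms commute with restriction. -/
theorem shiftIso_res (A : Rep k G) (S : Subgroup G) (c : groupCohomology (dimShift A) 1) :
    (shiftIso A S 0).hom.hom ((map S.subtype (𝟙 (res S.subtype (dimShift A))) 1).hom c) =
      (map S.subtype (𝟙 (res S.subtype A)) 2).hom ((shiftIsoTop A 0).hom.hom c) :=
  δ_res (shiftSES_shortExact A) S (shiftSES_res_shortExact A S) c

end Fermat.Agent.S55.H55
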