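/-
S55 (Poitou–Tate), package C4 (local duality, designer helper26), leaves (SHI) and (SHS)
(helper55): explicit Shapiro in degree 2 for level-constant cochains with values in `k[G ⧸ H]`.

Dictionary: a 2-cochain `c : G × G → k[G ⧸ H]` corresponds to the left-`H`-invariant homogeneous
cochain `F (y₀, y₁, y₂) := coefficient of c (y₀⁻¹y₁, y₁⁻¹y₂) at y₀⁻¹H`.  With a retraction
`t : G → H` (`t (h g) = h t g`, `t|H = id`) the prism identity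
`F = F ∘ t³ + hd1 (prism t F)` holds for homogeneous cocycles.
-/
import Mathlib
import Fermat.Agent.S55.H26.LocalInvPlan
import Fermat.Agent.S55.H99.Bridge2

set_option autoImplicit false

open CategoryTheory groupCohomology

noncomputable section

namespace Fermat.Agent.S55.H55.Shapiro

open Fermat.Agent.S55.H49 Fermat.Agent.S55.H26

variable {G : Type} [Group G]

/-! ### The retraction `t : G → H` -/

section Retraction

variable (H : Subgroup G)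

/-- A representative of the right coset `H g` (depending only on `H g`). -/
def rrep (g : G) : G := ((QuotientGroup.mk g⁻¹ : G ⧸ H).out)⁻¹

theorem rrep_mul_left {h : G} (hh : h ∈ H) (g : G) : rrep H (h * g) = rrep H g := by
  unfold rrep
  rw [mul_inv_rev, QuotientGroup.mk_mul_of_mem _ (H.inv_mem hh)]

theorem mul_rrep_inv_mem (g : G) : g * (rrep H g)⁻¹ ∈ H := by
  unfold rrep
  rw [inv_inv]
  obtain ⟨h, hh⟩ := QuotientGroup.mk_out_eq_mul H g⁻¹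
  rw [hh, mul_inv_cancel_left]
  exact h.2

theorem rrep_one_mem : rrep H 1 ∈ H := by
  have h := H.inv_mem (mul_rrep_inv_mem H 1)
  simpa using h

/-- The retraction `t : G → H`. -/
def retr (g : G) : H :=
  ⟨g * (rrep H g)⁻¹ * rrep H 1, H.mul_mem (mul_rrep_inv_mem H g) (rrep_one_mem H)⟩

theorem retr_mul_left (h : H) (g : G) : retr H ((h : G) * g) = h * retr H g := by
  apply Subtype.ext
  simp [retr, rrep_mul_left H h.2, mul_assoc]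

theorem retr_coe (h : H) : retr H (h : G) = h := by
  have h1 : retr H (1 : G) = 1 := by
    apply Subtype.ext
    simp [retr]
  have h2 := retr_mul_left H h 1
  rw [mul_one, h1, mul_one] at h2
  exact h2

theorem retr_mul_right {N : Subgroup G} (hNn : N.Normal) (hN : N ≤ H) (g : G) {n : G}
    (hn : n ∈ N) : ((retr H g : H) : G)⁻¹ * ((retr H (g * n) : H) : G) ∈ N := by
  have h1 : g * n * g⁻¹ ∈ N := hNn.conj_mem n hn g
  have e : g * n = ((⟨g * n * g⁻¹, hN h1⟩ : H) : G) * g := by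
    simp
  rw [e, retr_mul_left, Subgroup.coe_mul]
  have h2 := hNn.conj_mem _ h1 ((retr H g : H) : G)⁻¹
  simpa [mul_assoc] using h2

end Retraction

/-! ### The prism identity -/

omit [Group G] in
theorem prism_identity {k : Type} [Field k] (t : G → G) (F : G → G → G → k)
    (hF : ∀ y₀ y₁ y₂ y₃ : G, F y₁ y₂ y₃ - F y₀ y₂ y₃ + F y₀ y₁ y₃ - F y₀ y₁ y₂ = 0)
    (y₀ y₁ y₂ : G) :
    (F (t y₁) y₁ y₂ - F (t y₁) (t y₂) y₂) - (F (t y₀) y₀ y₂ - F (t y₀) (t y₂) y₂) +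
      (F (t y₀) y₀ y₁ - F (t y₀) (t y₁) y₁) = F y₀ y₁ y₂ - F (t y₀) (t y₁) (t y₂) := by
  have h1 := hF (t y₀) y₀ y₁ y₂
  have h2 := hF (t y₀) (t y₁) y₁ y₂
  have h3 := hF (t y₀) (t y₁) (t y₂) y₂
  linear_combination -h1 + h2 - h3

/-! ### Coefficients in `k[G ⧸ H]` -/

section Coeff

variable {k : Type} [Field k] (H : Subgroup G)

theorem permRep_ext {v v' : (permRep k H).V}
    (h : ∀ x : G, v.coeff (x : G ⧸ H) = v'.coeff (x : G ⧸ H)) : v = v' := by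
  apply MonoidAlgebra.coeff_injective
  ext q
  induction q using QuotientGroup.induction_on with
  | H x => exact h x

theorem coeff_ρ (g : G) (v : (permRep k H).V) (x : G) :
    ((permRep k H).ρ g v).coeff (x : G ⧸ H) = v.coeff ((g⁻¹ * x : G) : G ⧸ H) :=
  Representation.coeff_ofMulAction g v _

variable [Finite (G ⧸ H)]

/-- The element of `k[G ⧸ H]` whose coefficient at `xH` is `ψ x` (for `ψ` right `H`-invariant). -/
def mkOfFun (ψ : G → k) : (permRep k H).V :=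
  MonoidAlgebra.ofCoeff (Finsupp.equivFunOnFinite.symm (fun q : G ⧸ H => ψ q.out))

theorem coeff_mkOfFun (ψ : G → k) (hψ : ∀ x h : G, h ∈ H → ψ (x * h) = ψ x) (x : G) :
    (mkOfFun H ψ).coeff (x : G ⧸ H) = ψ x := by
  obtain ⟨h, hh⟩ := QuotientGroup.mk_out_eq_mul H x
  show ψ ((x : G ⧸ H).out) = ψ x
  rw [hh]
  exact hψ x h h.2

end Coeff

/-! ### The dictionary: inhomogeneous `k[G ⧸ H]`-valued cochains ↔ homogeneous cochains -/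

section Dictionary

variable {k : Type} [Field k] (H : Subgroup G)

/-- The homogeneous cochain attached to `c : G × G → k[G ⧸ H]`. -/
def homog (c : G × G → (permRep k H).V) (y₀ y₁ y₂ : G) : k :=
  (c (y₀⁻¹ * y₁, y₁⁻¹ * y₂)).coeff ((y₀⁻¹ : G) : G ⧸ H)

theorem homog_mul_left (c : G × G → (permRep k H).V) {h : G} (hh : h ∈ H) (y₀ y₁ y₂ : G) :
    homog H c (h * y₀) (h * y₁) (h * y₂) = homog H c y₀ y₁ y₂ := by
  unfold homog
  have e1 : (h * y₀)⁻¹ * (h * y₁) = y₀⁻¹ * y₁ := by group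
  have e2 : (h * y₁)⁻¹ * (h * y₂) = y₁⁻¹ * y₂ := by group
  have e3 : (((h * y₀)⁻¹ : G) : G ⧸ H) = ((y₀⁻¹ : G) : G ⧸ H) := by
    rw [mul_inv_rev, QuotientGroup.mk_mul_of_mem _ (H.inv_mem hh)]
  rw [e1, e2, e3]

theorem coeff_eq_homog (c : G × G → (permRep k H).V) (g h x : G) :
    (c (g, h)).coeff (x : G ⧸ H) = homog H c x⁻¹ (x⁻¹ * g) (x⁻¹ * g * h) := by
  unfold homog
  have e1 : (x⁻¹)⁻¹ * (x⁻¹ * g) = g := by group
  have e2 : (x⁻¹ * g)⁻¹ * (x⁻¹ * g * h) = h := by group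
  rw [e1, e2, inv_inv]

theorem homog_cocycle (c : G × G → (permRep k H).V) (hc : c ∈ cocycles₂ (permRep k H))
    (y₀ y₁ y₂ y₃ : G) :
    homog H c y₁ y₂ y₃ - homog H c y₀ y₂ y₃ + homog H c y₀ y₁ y₃ - homog H c y₀ y₁ y₂ = 0 := by
  have h := (mem_cocycles₂_iff c).1 hc (y₀⁻¹ * y₁) (y₁⁻¹ * y₂) (y₂⁻¹ * y₃)
  have e1 : y₀⁻¹ * y₁ * (y₁⁻¹ * y₂) = y₀⁻¹ * y₂ := by group
  have e2 : y₁⁻¹ * y₂ * (y₂⁻¹ * y₃) = y₁⁻¹ * y₃ := by group
  have e3 : (y₀⁻¹ * y₁)⁻¹ * y₀⁻¹ = y₁⁻¹ := by group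
  rw [e1, e2] at h
  have h' := congrArg (fun v : (permRep k H).V => v.coeff ((y₀⁻¹ : G) : G ⧸ H)) h
  simp only [MonoidAlgebra.coeff_add, Finsupp.add_apply] at h'
  rw [coeff_ρ, e3] at h'
  unfold homog
  linear_combination -h'

theorem homog_mul_right {N : Subgroup G} (hNn : N.Normal) (c : G × G → (permRep k H).V)
    (hc1 : ∀ a b n n' : G, n ∈ N → n' ∈ N → c (a * n, b * n') = c (a, b))
    (hc2 : ∀ a b s : G, s ∈ N → (permRep k H).ρ s (c (a, b)) = c (a, b))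
    (y₀ y₁ y₂ n₀ n₁ n₂ : G) (h₀ : n₀ ∈ N) (h₁ : n₁ ∈ N) (h₂ : n₂ ∈ N) :
    homog H c (y₀ * n₀) (y₁ * n₁) (y₂ * n₂) = homog H c y₀ y₁ y₂ := by
  unfold homog
  have e1 : (y₀ * n₀)⁻¹ * (y₁ * n₁) =
      y₀⁻¹ * y₁ * (((y₀⁻¹ * y₁)⁻¹ * n₀⁻¹ * (y₀⁻¹ * y₁)) * n₁) := by group
  have e2 : (y₁ * n₁)⁻¹ * (y₂ * n₂) =
      y₁⁻¹ * y₂ * (((y₁⁻¹ * y₂)⁻¹ * n₁⁻¹ * (y₁⁻¹ * y₂)) * n₂) := by group
  have m1 : ((y₀⁻¹ * y₁)⁻¹ * n₀⁻¹ * (y₀⁻¹ * y₁)) * n₁ ∈ N :=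
    N.mul_mem (hNn.conj_mem' _ (N.inv_mem h₀) _) h₁
  have m2 : ((y₁⁻¹ * y₂)⁻¹ * n₁⁻¹ * (y₁⁻¹ * y₂)) * n₂ ∈ N :=
    N.mul_mem (hNn.conj_mem' _ (N.inv_mem h₁) _) h₂
  rw [e1, e2, hc1 _ _ _ _ m1 m2]
  have e3 : (y₀ * n₀)⁻¹ = n₀⁻¹ * y₀⁻¹ := by group
  rw [e3, ← coeff_ρ, hc2 _ _ _ h₀]

end Dictionary

/-! ### Solving `hd1 B = F` -/

section Solve

variable {k : Type} [Field k] (H : Subgroup G)

/-- The homogeneous 1-cochain `w ∘ t² + prism t F`. -/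
def bhat (F : G → G → G → k) (w : H → k) (a b : G) : k :=
  w ((retr H a)⁻¹ * retr H b) + (F (retr H a) a b - F (retr H a) (retr H b) b)

theorem bhat_mul_left (F : G → G → G → k) (w : H → k)
    (hFH : ∀ h ∈ H, ∀ y₀ y₁ y₂ : G, F (h * y₀) (h * y₁) (h * y₂) = F y₀ y₁ y₂)
    {h : G} (hh : h ∈ H) (a b : G) : bhat H F w (h * a) (h * b) = bhat H F w a b := by
  unfold bhat
  have ea := retr_mul_left H ⟨h, hh⟩ a
  have eb := retr_mul_left H ⟨h, hh⟩ b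
  simp only [] at ea eb
  rw [ea, eb]
  have e : ((⟨h, hh⟩ : H) * retr H a)⁻¹ * ((⟨h, hh⟩ : H) * retr H b) =
      (retr H a)⁻¹ * retr H b := by group
  rw [e]
  simp only [Subgroup.coe_mul]
  rw [hFH h hh, hFH h hh]

theorem bhat_hd1 (F : G → G → G → k) (w : H → k)
    (hFc : ∀ y₀ y₁ y₂ y₃ : G, F y₁ y₂ y₃ - F y₀ y₂ y₃ + F y₀ y₁ y₃ - F y₀ y₁ y₂ = 0)
    (hw : ∀ h₀ h₁ h₂ : H,
      F h₀ h₁ h₂ = w (h₁⁻¹ * h₂) - w (h₀⁻¹ * h₂) + w (h₀⁻¹ * h₁))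
    (y₀ y₁ y₂ : G) :
    bhat H F w y₁ y₂ - bhat H F w y₀ y₂ + bhat H F w y₀ y₁ = F y₀ y₁ y₂ := by
  have hp := prism_identity (fun g => ((retr H g : H) : G)) F hFc y₀ y₁ y₂
  have hw' := hw (retr H y₀) (retr H y₁) (retr H y₂)
  unfold bhat
  linear_combination hp - hw'

theorem retr_mul_right' {N : Subgroup G} (hNn : N.Normal) (hN : N ≤ H) (g : G) {n : G}
    (hn : n ∈ N) : ∃ m : H, (m : G) ∈ N ∧ retr H (g * n) = retr H g * m :=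
  ⟨(retr H g)⁻¹ * retr H (g * n), by
    simpa using retr_mul_right H hNn hN g hn, by group⟩

omit [Field k] in
theorem w_conj {N : Subgroup G} (hNn : N.Normal) (w : H → k)
    (hw : ∀ h n : H, (n : G) ∈ N → w (h * n) = w h) (a b m : H) (hm : (m : G) ∈ N) :
    w ((a * m)⁻¹ * b) = w (a⁻¹ * b) ∧ w (a⁻¹ * (b * m)) = w (a⁻¹ * b) := by
  constructor
  · have e : (a * m)⁻¹ * b = a⁻¹ * b * ((a⁻¹ * b)⁻¹ * m⁻¹ * (a⁻¹ * b)) := by group
    rw [e]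
    refine hw _ _ ?_
    have := hNn.conj_mem' _ (N.inv_mem hm) (((a⁻¹ * b : H)) : G)
    simpa using this
  · rw [← mul_assoc]
    exact hw _ _ hm

theorem bhat_mul_right {N : Subgroup G} (hNn : N.Normal) (hN : N ≤ H) (F : G → G → G → k)
    (w : H → k)
    (hF : ∀ y₀ y₁ y₂ n₀ n₁ n₂ : G, n₀ ∈ N → n₁ ∈ N → n₂ ∈ N →
      F (y₀ * n₀) (y₁ * n₁) (y₂ * n₂) = F y₀ y₁ y₂)
    (hw : ∀ h n : H, (n : G) ∈ N → w (h * n) = w h) (a b : G) {n n' : G} (hn : n ∈ N)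
    (hn' : n' ∈ N) : bhat H F w (a * n) (b * n') = bhat H F w a b := by
  obtain ⟨m, hm, em⟩ := retr_mul_right' H hNn hN a hn
  obtain ⟨m', hm', em'⟩ := retr_mul_right' H hNn hN b hn'
  unfold bhat
  rw [em, em']
  have e1 : w ((retr H a * m)⁻¹ * (retr H b * m')) = w ((retr H a)⁻¹ * retr H b) := by
    rw [(w_conj H hNn w hw (retr H a) (retr H b * m') m hm).1,
      (w_conj H hNn w hw (retr H a) (retr H b) m' hm').2]
  rw [e1]
  simp only [Subgroup.coe_mul]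
  rw [hF _ _ _ _ _ _ hm hn hn', hF _ _ _ _ _ _ hm hm' hn']

variable [Finite (G ⧸ H)]

/-- The `k[G ⧸ H]`-valued 1-cochain attached to a homogeneous 1-cochain. -/
def yOf (B : G → G → k) (g : G) : (permRep k H).V :=
  mkOfFun H (fun x => B x⁻¹ (x⁻¹ * g))

theorem coeff_yOf (B : G → G → k) (hB : ∀ h ∈ H, ∀ a b : G, B (h * a) (h * b) = B a b)
    (g x : G) : (yOf H B g).coeff (x : G ⧸ H) = B x⁻¹ (x⁻¹ * g) := by
  unfold yOf
  refine coeff_mkOfFun H _ (fun x h hh => ?_) x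
  have e := hB h⁻¹ (H.inv_mem hh) x⁻¹ (x⁻¹ * g)
  rw [← e]
  congr 1 <;> group

theorem d_yOf (B : G → G → k) (hB : ∀ h ∈ H, ∀ a b : G, B (h * a) (h * b) = B a b)
    (c : G × G → (permRep k H).V)
    (hBc : ∀ y₀ y₁ y₂ : G, B y₁ y₂ - B y₀ y₂ + B y₀ y₁ = homog H c y₀ y₁ y₂) :
    (d₁₂ (permRep k H)).hom (yOf H B) = c := by
  funext ⟨g, h⟩
  rw [d₁₂_hom_apply]
  apply permRep_ext
  intro x
  simp only [MonoidAlgebra.coeff_add, MonoidAlgebra.coeff_sub, Finsupp.add_apply,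
    Finsupp.sub_apply]
  rw [coeff_ρ, coeff_yOf H B hB, coeff_yOf H B hB, coeff_yOf H B hB, coeff_eq_homog]
  have e := hBc x⁻¹ (x⁻¹ * g) (x⁻¹ * g * h)
  have e1 : (g⁻¹ * x)⁻¹ = x⁻¹ * g := by group
  have e2 : x⁻¹ * (g * h) = x⁻¹ * g * h := by group
  rw [e1, e2]
  exact e

theorem isLCAt_yOf {N : Subgroup G} (hNn : N.Normal) (B : G → G → k)
    (hB : ∀ h ∈ H, ∀ a b : G, B (h * a) (h * b) = B a b)
    (hBN : ∀ a b n n' : G, n ∈ N → n' ∈ N → B (a * n) (b * n') = B a b) :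
    IsLCAt N (permRep k H) (fun g : Fin 1 → G => yOf H B (g 0)) := by
  refine ⟨fun g s hs => ?_, fun g s hs => ?_⟩
  · show yOf H B (g 0 * s 0) = yOf H B (g 0)
    apply permRep_ext
    intro x
    rw [coeff_yOf H B hB, coeff_yOf H B hB, ← mul_assoc]
    have e := hBN x⁻¹ (x⁻¹ * g 0) 1 (s 0) N.one_mem (hs 0)
    rw [mul_one] at e
    exact e
  · apply permRep_ext
    intro x
    rw [coeff_ρ, coeff_yOf H B hB, coeff_yOf H B hB]
    have e1 : (s⁻¹ * x)⁻¹ = x⁻¹ * s := by group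
    have e2 : x⁻¹ * s * g 0 = x⁻¹ * g 0 * ((g 0)⁻¹ * s * g 0) := by group
    rw [e1, e2]
    exact hBN _ _ _ _ hs (hNn.conj_mem' _ hs _)

end Solve

/-! ### Leaf (SHI): Shapiro injectivity in degree 2 -/

/-- **Leaf (SHI)** of C4, verbatim. -/
theorem shapiroInj : ShapiroInjStatement := by
  intro G _ k _ D hD H F hF hFH hfin z w hw hzw
  have : Finite (G ⧸ H) := Subgroup.finite_quotient_of_finiteIndex
  let c : G × G → (permRep k H).V := fun p => lcVal z ![p.1, p.2]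
  have hzc : lcVal z = fun g : Fin 2 → G => c (g 0, g 1) := by
    funext g
    show lcVal z g = lcVal z ![g 0, g 1]
    rw [H99.fin_two_eta]
  obtain ⟨Fz, hFz, hNz, hz1, hz2⟩ : IsLC D (permRep k H) (lcVal z) :=
    (show lcCochains D (permRep k H) 2 from z.1).2
  obtain ⟨Fw, hFw, hw'⟩ := hw
  obtain ⟨F', hF', hle, hN'⟩ := hD (Fz ⊔ Fw ⊔ F) (D.sup (D.sup hFz hFw) hF)
  have hNn : (D.sub F').Normal := D.sub_normal hN'
  have hNH : D.sub F' ≤ H := (D.sub_antitone (le_sup_right.trans hle)).trans hFH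
  have hNz' : D.sub F' ≤ D.sub Fz :=
    D.sub_antitone ((le_sup_left.trans le_sup_left).trans hle)
  have hNw : D.sub F' ≤ D.sub Fw :=
    D.sub_antitone ((le_sup_right.trans le_sup_left).trans hle)
  -- the cocycle condition
  have hc : c ∈ cocycles₂ (permRep k H) := by
    rw [← H99.d_two_eq_zero_iff, ← hzc]
    have h1 : ((lcComplex D (permRep k H)).d 2 3).hom z.1 = 0 := z.2
    have h2 := H99.lcValC_d D (permRep k H) 2 z.1
    rw [h1] at h2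
    exact h2.symm
  -- level constancy of `c`
  have hc1 : ∀ a b n n' : G, n ∈ D.sub F' → n' ∈ D.sub F' → c (a * n, b * n') = c (a, b) := by
    intro a b n n' hn hn'
    have e : (![a * n, b * n'] : Fin 2 → G) = ![a, b] * ![n, n'] := by
      funext i
      fin_cases i <;> rfl
    show lcVal z ![a * n, b * n'] = lcVal z ![a, b]
    rw [e]
    refine hz1 _ _ fun i => ?_
    fin_cases i
    · exact hNz' hn
    · exact hNz' hn'
  have hc2 : ∀ a b s : G, s ∈ D.sub F' → (permRep k H).ρ s (c (a, b)) = c (a, b) :=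
    fun a b s hs => hz2 _ s (hNz' hs)
  -- the homogeneous data
  have hFH' : ∀ h ∈ H, ∀ y₀ y₁ y₂ : G,
      homog H c (h * y₀) (h * y₁) (h * y₂) = homog H c y₀ y₁ y₂ :=
    fun h hh y₀ y₁ y₂ => homog_mul_left H c hh y₀ y₁ y₂
  have hFc := homog_cocycle H c hc
  have hFN := homog_mul_right H hNn c hc1 hc2
  have hwN : ∀ h n : H, (n : G) ∈ D.sub F' → w (h * n) = w h :=
    fun h n hn => hw' h n (hNw hn)
  have hwF : ∀ h₀ h₁ h₂ : H, homog H c h₀ h₁ h₂ =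
      w (h₁⁻¹ * h₂) - w (h₀⁻¹ * h₂) + w (h₀⁻¹ * h₁) := by
    intro h₀ h₁ h₂
    have e := hzw (h₀⁻¹ * h₁) (h₁⁻¹ * h₂)
    have e2 : h₀⁻¹ * h₁ * (h₁⁻¹ * h₂) = h₀⁻¹ * h₂ := by group
    rw [e2] at e
    rw [← e]
    have e3 : ((((h₀ : G)⁻¹ : G)) : G ⧸ H) = ((1 : G) : G ⧸ H) := by
      rw [QuotientGroup.eq]
      simp
    show (c ((h₀ : G)⁻¹ * h₁, (h₁ : G)⁻¹ * h₂)).coeff (((h₀ : G)⁻¹ : G) : G ⧸ H) =
      (c (((h₀⁻¹ * h₁ : H) : G), ((h₁⁻¹ * h₂ : H) : G))).coeff ((1 : G) : G ⧸ H)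
    rw [e3]
    rfl
  have hBH : ∀ h ∈ H, ∀ a b : G,
      bhat H (homog H c) w (h * a) (h * b) = bhat H (homog H c) w a b :=
    fun h hh a b => bhat_mul_left H (homog H c) w hFH' hh a b
  have hBN : ∀ a b n n' : G, n ∈ D.sub F' → n' ∈ D.sub F' →
      bhat H (homog H c) w (a * n) (b * n') = bhat H (homog H c) w a b :=
    fun a b n n' hn hn' => bhat_mul_right H hNn hNH (homog H c) w hFN hwN a b hn hn'
  have hBc := bhat_hd1 H (homog H c) w hFc hwF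
  rw [cls_eq_zero_iff]
  let y₀ : lcCochains D (permRep k H) 1 :=
    ⟨fun g : Fin 1 → G => yOf H (bhat H (homog H c) w) (g 0),
      ⟨F', hF', hN', isLCAt_yOf H hNn _ hBH hBN⟩⟩
  let y : (lcComplex D (permRep k H)).X 1 := y₀
  refine ⟨y, ?_⟩
  apply lcValC_injective
  rw [H99.lcValC_d]
  show (inhomogeneousCochains.d (permRep k H) 1).hom
    (fun g : Fin 1 → G => yOf H (bhat H (homog H c) w) (g 0)) = lcVal z
  rw [H99.d_one_apply, hzc, d_yOf H _ hBH c hBc]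

/-! ### Leaf (SHS): Shapiro surjectivity in degree 2 -/

section Surj

variable {k : Type} [Field k] (H : Subgroup G)

/-- The homogeneous cochain `f̃ ∘ t³` attached to `f : H × H → k`. -/
def fhom (f : H × H → k) (y₀ y₁ y₂ : G) : k :=
  f ((retr H y₀)⁻¹ * retr H y₁, (retr H y₁)⁻¹ * retr H y₂)

omit [Field k] in
theorem fhom_mul_left (f : H × H → k) : ∀ h ∈ H, ∀ y₀ y₁ y₂ : G,
    fhom H f (h * y₀) (h * y₁) (h * y₂) = fhom H f y₀ y₁ y₂ := by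
  intro h hh y₀ y₁ y₂
  unfold fhom
  have e0 := retr_mul_left H ⟨h, hh⟩ y₀
  have e1 := retr_mul_left H ⟨h, hh⟩ y₁
  have e2 := retr_mul_left H ⟨h, hh⟩ y₂
  simp only [] at e0 e1 e2
  rw [e0, e1, e2]
  congr 2 <;> group

theorem fhom_cocycle (f : H × H → k)
    (hf : ∀ h₁ h₂ h₃ : H, f (h₂, h₃) - f (h₁ * h₂, h₃) + f (h₁, h₂ * h₃) - f (h₁, h₂) = 0)
    (y₀ y₁ y₂ y₃ : G) :
    fhom H f y₁ y₂ y₃ - fhom H f y₀ y₂ y₃ + fhom H f y₀ y₁ y₃ - fhom H f y₀ y₁ y₂ = 0 := by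
  unfold fhom
  have e := hf ((retr H y₀)⁻¹ * retr H y₁) ((retr H y₁)⁻¹ * retr H y₂)
    ((retr H y₂)⁻¹ * retr H y₃)
  have e1 : (retr H y₀)⁻¹ * retr H y₁ * ((retr H y₁)⁻¹ * retr H y₂) =
      (retr H y₀)⁻¹ * retr H y₂ := by group
  have e2 : (retr H y₁)⁻¹ * retr H y₂ * ((retr H y₂)⁻¹ * retr H y₃) =
      (retr H y₁)⁻¹ * retr H y₃ := by group
  rw [e1, e2] at e
  exact e

omit [Field k] in
theorem fhom_mul_right {N : Subgroup G} (hNn : N.Normal) (hN : N ≤ H) (f : H × H → k)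
    (hf : ∀ h₁ h₂ n₁ n₂ : H, (n₁ : G) ∈ N → (n₂ : G) ∈ N → f (h₁ * n₁, h₂ * n₂) = f (h₁, h₂))
    (y₀ y₁ y₂ n₀ n₁ n₂ : G) (h₀ : n₀ ∈ N) (h₁ : n₁ ∈ N) (h₂ : n₂ ∈ N) :
    fhom H f (y₀ * n₀) (y₁ * n₁) (y₂ * n₂) = fhom H f y₀ y₁ y₂ := by
  obtain ⟨m₀, hm₀, em₀⟩ := retr_mul_right' H hNn hN y₀ h₀
  obtain ⟨m₁, hm₁, em₁⟩ := retr_mul_right' H hNn hN y₁ h₁
  obtain ⟨m₂, hm₂, em₂⟩ := retr_mul_right' H hNn hN y₂ h₂
  unfold fhom
  rw [em₀, em₁, em₂]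
  have e1 : (retr H y₀ * m₀)⁻¹ * (retr H y₁ * m₁) = (retr H y₀)⁻¹ * retr H y₁ *
      (((retr H y₀)⁻¹ * retr H y₁)⁻¹ * m₀⁻¹ * ((retr H y₀)⁻¹ * retr H y₁) * m₁) := by group
  have e2 : (retr H y₁ * m₁)⁻¹ * (retr H y₂ * m₂) = (retr H y₁)⁻¹ * retr H y₂ *
      (((retr H y₁)⁻¹ * retr H y₂)⁻¹ * m₁⁻¹ * ((retr H y₁)⁻¹ * retr H y₂) * m₂) := by group
  rw [e1, e2]
  refine hf _ _ _ _ ?_ ?_
  · have h := N.mul_mem (hNn.conj_mem' _ (N.inv_mem hm₀)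
      ((((retr H y₀)⁻¹ * retr H y₁ : H)) : G)) hm₁
    simpa using h
  · have h := N.mul_mem (hNn.conj_mem' _ (N.inv_mem hm₁)
      ((((retr H y₁)⁻¹ * retr H y₂ : H)) : G)) hm₂
    simpa using h

variable [Finite (G ⧸ H)]

/-- The `k[G ⧸ H]`-valued 2-cochain attached to a homogeneous 2-cochain. -/
def cOf (F : G → G → G → k) (p : G × G) : (permRep k H).V :=
  mkOfFun H (fun x => F x⁻¹ (x⁻¹ * p.1) (x⁻¹ * p.1 * p.2))

theorem coeff_cOf (F : G → G → G → k)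
    (hF : ∀ h ∈ H, ∀ y₀ y₁ y₂ : G, F (h * y₀) (h * y₁) (h * y₂) = F y₀ y₁ y₂) (g h x : G) :
    (cOf H F (g, h)).coeff (x : G ⧸ H) = F x⁻¹ (x⁻¹ * g) (x⁻¹ * g * h) := by
  unfold cOf
  refine coeff_mkOfFun H _ (fun x u hu => ?_) x
  have e := hF u⁻¹ (H.inv_mem hu) x⁻¹ (x⁻¹ * g) (x⁻¹ * g * h)
  rw [← e]
  congr 1 <;> group

theorem cOf_mem_cocycles₂ (F : G → G → G → k)
    (hF : ∀ h ∈ H, ∀ y₀ y₁ y₂ : G, F (h * y₀) (h * y₁) (h * y₂) = F y₀ y₁ y₂)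
    (hFc : ∀ y₀ y₁ y₂ y₃ : G, F y₁ y₂ y₃ - F y₀ y₂ y₃ + F y₀ y₁ y₃ - F y₀ y₁ y₂ = 0) :
    cOf H F ∈ cocycles₂ (permRep k H) := by
  rw [mem_cocycles₂_iff]
  intro g h j
  apply permRep_ext
  intro x
  simp only [MonoidAlgebra.coeff_add, Finsupp.add_apply]
  rw [coeff_ρ, coeff_cOf H F hF, coeff_cOf H F hF, coeff_cOf H F hF, coeff_cOf H F hF]
  have e := hFc x⁻¹ (x⁻¹ * g) (x⁻¹ * g * h) (x⁻¹ * g * h * j)
  have e1 : (g⁻¹ * x)⁻¹ = x⁻¹ * g := by group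
  have e2 : x⁻¹ * (g * h) = x⁻¹ * g * h := by group
  have e3 : x⁻¹ * g * (h * j) = x⁻¹ * g * h * j := by group
  rw [e1, e2, e3]
  linear_combination -e

theorem isLCAt_cOf {N : Subgroup G} (hNn : N.Normal) (F : G → G → G → k)
    (hF : ∀ h ∈ H, ∀ y₀ y₁ y₂ : G, F (h * y₀) (h * y₁) (h * y₂) = F y₀ y₁ y₂)
    (hFN : ∀ y₀ y₁ y₂ n₀ n₁ n₂ : G, n₀ ∈ N → n₁ ∈ N → n₂ ∈ N →
      F (y₀ * n₀) (y₁ * n₁) (y₂ * n₂) = F y₀ y₁ y₂) :
    IsLCAt N (permRep k H) (fun g : Fin 2 → G => cOf H F (g 0, g 1)) := by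
  refine ⟨fun g s hs => ?_, fun g s hs => ?_⟩
  · show cOf H F (g 0 * s 0, g 1 * s 1) = cOf H F (g 0, g 1)
    apply permRep_ext
    intro x
    rw [coeff_cOf H F hF, coeff_cOf H F hF]
    have e1 : x⁻¹ * (g 0 * s 0) = x⁻¹ * g 0 * s 0 := by group
    have e2 : x⁻¹ * g 0 * s 0 * (g 1 * s 1) =
        x⁻¹ * g 0 * g 1 * ((g 1)⁻¹ * s 0 * g 1 * s 1) := by group
    rw [e1, e2]
    have e := hFN x⁻¹ (x⁻¹ * g 0) (x⁻¹ * g 0 * g 1) 1 (s 0) ((g 1)⁻¹ * s 0 * g 1 * s 1)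
      N.one_mem (hs 0) (N.mul_mem (hNn.conj_mem' _ (hs 0) _) (hs 1))
    rw [mul_one] at e
    exact e
  · apply permRep_ext
    intro x
    rw [coeff_ρ, coeff_cOf H F hF, coeff_cOf H F hF]
    have e1 : (s⁻¹ * x)⁻¹ = x⁻¹ * s := by group
    have e2 : x⁻¹ * s * g 0 = x⁻¹ * g 0 * ((g 0)⁻¹ * s * g 0) := by group
    have e3 : x⁻¹ * g 0 * ((g 0)⁻¹ * s * g 0) * g 1 =
        x⁻¹ * g 0 * g 1 * ((g 0 * g 1)⁻¹ * s * (g 0 * g 1)) := by group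
    rw [e1, e2, e3]
    exact hFN _ _ _ _ _ _ hs (hNn.conj_mem' _ hs _) (hNn.conj_mem' _ hs _)

end Surj

/-- **Leaf (SHS)** of C4, verbatim. -/
theorem shapiroSurj : ShapiroSurjStatement := by
  intro G _ k _ D hD H F hF hFH hfin f hf hfc
  have : Finite (G ⧸ H) := Subgroup.finite_quotient_of_finiteIndex
  obtain ⟨Ff, hFf, hf'⟩ := hf
  obtain ⟨F', hF', hle, hN'⟩ := hD (Ff ⊔ F) (D.sup hFf hF)
  have hNn : (D.sub F').Normal := D.sub_normal hN'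
  have hNH : D.sub F' ≤ H := (D.sub_antitone (le_sup_right.trans hle)).trans hFH
  have hNf : D.sub F' ≤ D.sub Ff := D.sub_antitone (le_sup_left.trans hle)
  have hfN : ∀ h₁ h₂ n₁ n₂ : H, (n₁ : G) ∈ D.sub F' → (n₂ : G) ∈ D.sub F' →
      f (h₁ * n₁, h₂ * n₂) = f (h₁, h₂) :=
    fun h₁ h₂ n₁ n₂ hn₁ hn₂ => hf' h₁ h₂ n₁ n₂ (hNf hn₁) (hNf hn₂)
  have hFH' := fhom_mul_left H f
  have hFc := fhom_cocycle H f hfc
  have hFN := fhom_mul_right H hNn hNH f hfN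
  let z₀ : lcCochains D (permRep k H) 2 :=
    ⟨fun g : Fin 2 → G => cOf H (fhom H f) (g 0, g 1),
      ⟨F', hF', hN', isLCAt_cOf H hNn _ hFH' hFN⟩⟩
  let z₁ : (lcComplex D (permRep k H)).X 2 := z₀
  have hz : z₁ ∈ cyc (lcComplex D (permRep k H)) 2 := by
    rw [mem_cyc]
    apply lcValC_injective
    rw [H99.lcValC_d]
    show (inhomogeneousCochains.d (permRep k H) 2).hom
      (fun g : Fin 2 → G => cOf H (fhom H f) (g 0, g 1)) = 0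
    rw [H99.d_two_eq_zero_iff]
    exact cOf_mem_cocycles₂ H _ hFH' hFc
  refine ⟨⟨z₁, hz⟩, fun h₁ h₂ => ?_⟩
  show (cOf H (fhom H f) ((h₁ : G), (h₂ : G))).coeff ((1 : G) : G ⧸ H) = f (h₁, h₂)
  rw [coeff_cOf H _ hFH']
  have r0 : retr H (1 : G) = 1 := retr_coe H 1
  have r1 : retr H (h₁ : G) = h₁ := retr_coe H h₁
  have r2 : retr H ((h₁ : G) * (h₂ : G)) = h₁ * h₂ := retr_coe H (h₁ * h₂)
  simp only [inv_one, one_mul]
  unfold fhom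
  rw [r0, r1, r2]
  congr 2 <;> group

end Fermat.Agent.S55.H55.Shapiro

end
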