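/-
Program C (S55), package C8 (helper29's SPEC v2 part 2, `H29/C8Ex.lean`),
leaves (SUB-PRES-SURJ) and (QUOT-PRES-SURJ) — helper55.

The change-of-presentation maps `H88.subH2` and `H88.quotH2` are bijective
(helper79: `H79.subH2_bijective`, `H79.quotH2_bijective`), in particular surjective.

* `subH2SurjStatement : H29.SubH2SurjStatement` (VERBATIM);
* `quotH2SurjStatement : H29.QuotH2SurjStatement` (VERBATIM).
-/
import Fermat.Agent.S55.H29.C8Ex
import Fermat.Agent.S55.H79.SubPres
import Fermat.Agent.S55.H79.QuotPres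

set_option autoImplicit false

namespace Fermat.Agent.S55.H55

/-- **Leaf (SUB-PRES-SURJ)** of `H29/C8Ex.lean`, verbatim. -/
theorem subH2SurjStatement : Fermat.Agent.S55.H29.SubH2SurjStatement := by
  intro k E K _ _ _ _ _ _ _ _ _ _ _
  exact (Fermat.Agent.S55.H79.subH2_bijective k E K).2

/-- **Leaf (QUOT-PRES-SURJ)** of `H29/C8Ex.lean`, verbatim. -/
theorem quotH2SurjStatement : Fermat.Agent.S55.H29.QuotH2SurjStatement := by
  intro k E K _ _ _ _ _ _ _ _ _ _ _ _ _
  exact (Fermat.Agent.S55.H79.quotH2_bijective k E K).2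

end Fermat.Agent.S55.H55
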