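/-
S55 (Poitou–Tate), package C1 (finite-group cohomology, designer helper84), AUG leaf of TATE-3
(owner helper73): the augmentation ideal `I_G` of a finite group `G` and its cohomology on ALL
subgroups.  Mathlib + helper73's `DimShift(Inv)` only.

* `funRep G`     : `ℤ[G]` as the left regular representation on functions `G → ℤ`
                   (`(g • f) x = f (g⁻¹ * x)`; `Pi.single g 1` is the group element `g`);
* `isZero_res_funRep` : `Hⁿ⁺¹(S, ℤ[G]) = 0` for every subgroup `S`;
* `aug G`, `augIdeal G`, `augHom G`, `augSES G : 0 ⟶ I_G ⟶ ℤ[G] ⟶ ℤ ⟶ 0`, `augSES_shortExact`;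
* `augElt G g = g - 1 ∈ I_G`, `augCocycle G S : s ↦ s - 1` (a 1-cocycle of `S` in `I_G`);
* `exists_eq_zsmul_augCocycle_add` : every 1-cocycle of `S` in `I_G` is an integer multiple of
  `augCocycle` plus a coboundary; `H1_res_augIdeal_eq_zsmul` : the class form;
* `zsmul_H1π_augCocycle_eq_zero_iff` : `m • [augCocycle] = 0 ↔ #S ∣ m`;
* `natCard_H1_res_augIdeal` : `#H¹(S, I_G) = #S`;
* `isZero_H2_res_augIdeal` : `H²(S, I_G) = 0`.
-/
import Mathlib
import Fermat.Agent.S55.H73.DimShiftInv

set_option autoImplicit false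

open CategoryTheory groupCohomology Rep

namespace Fermat.Agent.S55.H55.Aug

variable (G : Type) [Group G]

/-- The left regular representation of `G` on the functions `G → ℤ`:
`(g • f) x = f (g⁻¹ * x)`. -/
noncomputable def funRho : Representation ℤ G (G → ℤ) where
  toFun g := LinearMap.funLeft ℤ ℤ (fun x => g⁻¹ * x)
  map_one' := by
    refine LinearMap.ext fun f => funext fun x => ?_
    simp [LinearMap.funLeft_apply]
  map_mul' g h := by
    refine LinearMap.ext fun f => funext fun x => ?_
    simp [LinearMap.funLeft_apply, mul_assoc]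

theorem funRho_apply (g : G) (f : G → ℤ) (x : G) : funRho G g f x = f (g⁻¹ * x) := rfl

/-- `ℤ[G]` as the left regular representation on functions. -/
noncomputable abbrev funRep : Rep ℤ G := Rep.of (funRho G)

/-- Underlying linear equivalence of `funRepIso`. -/
noncomputable def funRepEquiv :
    (funRep G).V ≃ₗ[ℤ] (H73.coindBot (Rep.trivial ℤ G ℤ)).V where
  toFun f := ⟨fun x => f x⁻¹, fun g h => by
    have hg : (g : G) = 1 := Subgroup.mem_bot.mp g.2
    simp [hg]⟩
  map_add' _ _ := rfl
  map_smul' _ _ := rfl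
  invFun F := fun x => F.1 x⁻¹
  left_inv f := by
    funext x
    simp
  right_inv F := by
    apply Subtype.ext
    funext x
    simp

/-- `ℤ[G]` (functions, left regular) is `Fun(G, ℤ)` with right translation, via inversion. -/
noncomputable def funRepIso : funRep G ≅ H73.coindBot (Rep.trivial ℤ G ℤ) :=
  Rep.mkIso (Representation.Equiv.mk (funRepEquiv G) (fun g => by
    apply LinearMap.ext
    intro f
    apply Subtype.ext
    funext x
    change f (g⁻¹ * x⁻¹) = f ((x * g)⁻¹)
    rw [mul_inv_rev]))

/-- `ℤ[G]` is cohomologically trivial in positive degrees on every subgroup. -/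
theorem isZero_res_funRep (S : Subgroup G) (n : ℕ) :
    Limits.IsZero (groupCohomology (res S.subtype (funRep G)) (n + 1)) :=
  (H73.isZero_res_coindBot (Rep.trivial ℤ G ℤ) S n).of_iso
    ((groupCohomology.functor ℤ S (n + 1)).mapIso
      ((resFunctor S.subtype).mapIso (funRepIso G)))


/-! ### The augmentation and the augmentation ideal -/

section Augmentation

variable [Finite G]

/-- The augmentation `ℤ[G] → ℤ`, `f ↦ ∑ x, f x`. -/
noncomputable def aug : (G → ℤ) →ₗ[ℤ] ℤ :=
  letI := Fintype.ofFinite G
  ∑ x : G, LinearMap.proj x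

omit [Group G] in
theorem aug_apply [Fintype G] (f : G → ℤ) : aug G f = ∑ x, f x := by
  have h : Fintype.ofFinite G = ‹Fintype G› := Subsingleton.elim _ _
  unfold aug
  rw [h]
  simp [LinearMap.sum_apply]

theorem aug_funRho (g : G) (f : G → ℤ) : aug G (funRho G g f) = aug G f := by
  cases nonempty_fintype G
  rw [aug_apply, aug_apply]
  exact Fintype.sum_equiv (Equiv.mulLeft g⁻¹) _ _ (fun x => rfl)

omit [Group G] in
open Classical in
theorem aug_single (g : G) (m : ℤ) : aug G (Pi.single g m) = m := by
  cases nonempty_fintype G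
  rw [aug_apply]
  simp

omit [Finite G] in
open Classical in
theorem funRho_single (g h : G) (m : ℤ) :
    funRho G g (Pi.single h m) = Pi.single (g * h) m := by
  funext x
  rw [funRho_apply]
  by_cases hx : x = g * h
  · subst hx
    simp
  · rw [Pi.single_eq_of_ne hx, Pi.single_eq_of_ne]
    intro h'
    exact hx (by rw [← h']; group)

theorem augIdeal_le_comap (g : G) :
    LinearMap.ker (aug G) ≤ (LinearMap.ker (aug G)).comap ((funRep G).ρ g) := by
  intro f hf
  rw [Submodule.mem_comap, LinearMap.mem_ker]
  exact (aug_funRho G g f).trans (LinearMap.mem_ker.mp hf)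

/-- The augmentation ideal `I_G = ker (ℤ[G] → ℤ)` as a representation of `G`. -/
noncomputable abbrev augIdeal : Rep ℤ G :=
  Rep.subrepresentation (funRep G) (LinearMap.ker (aug G)) (augIdeal_le_comap G)

theorem augIdeal_ρ_coe (g : G) (x : (augIdeal G).V) :
    (((augIdeal G).ρ g x : (augIdeal G).V) : G → ℤ) = funRho G g (x : G → ℤ) := rfl

theorem augIdeal_aug (x : (augIdeal G).V) : aug G (x : G → ℤ) = 0 := LinearMap.mem_ker.mp x.2

theorem augIdeal_sum_eq_zero [Fintype G] (x : (augIdeal G).V) : ∑ τ, (x : G → ℤ) τ = 0 := by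
  rw [← aug_apply]
  exact augIdeal_aug G x

/-- The augmentation as a morphism of representations `ℤ[G] ⟶ ℤ`. -/
noncomputable def augHom : funRep G ⟶ Rep.trivial ℤ G ℤ :=
  Rep.ofHom ⟨aug G, fun g => LinearMap.ext fun f => aug_funRho G g f⟩

theorem augHom_hom_apply (f : G → ℤ) : (augHom G).hom f = aug G f := rfl

/-- The augmentation sequence `0 ⟶ I_G ⟶ ℤ[G] ⟶ ℤ ⟶ 0`. -/
noncomputable def augSES : ShortComplex (Rep ℤ G) :=
  ShortComplex.mk (X₁ := augIdeal G)
    (Rep.subtype (funRep G) (LinearMap.ker (aug G)) (augIdeal_le_comap G)) (augHom G) (by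
      ext x
      exact augIdeal_aug G x)

theorem augSES_f_hom_apply (x : (augIdeal G).V) : (augSES G).f.hom x = (x : G → ℤ) := rfl

theorem augSES_g_hom_apply (f : G → ℤ) : (augSES G).g.hom f = aug G f := rfl

theorem augSES_shortExact : (augSES G).ShortExact := by
  classical
  refine H73.shortExact_of_elementwise (augSES G) ?_ ?_ ?_
  · intro x y h
    exact Subtype.ext h
  · intro m
    exact ⟨Pi.single 1 m, aug_single G 1 m⟩
  · intro y hy
    exact ⟨⟨y, LinearMap.mem_ker.mpr hy⟩, rfl⟩

/-- The augmentation sequence restricted to a subgroup is short exact. -/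
theorem augSES_res_shortExact (S : Subgroup G) :
    ((augSES G).map (resFunctor S.subtype)).ShortExact :=
  (shortExact_res S.subtype).2 (augSES_shortExact G)

end Augmentation


/-! ### Cohomology of `I_G` on subgroups -/

section Cohomology

variable [Finite G]

open Classical in
/-- `g - 1 ∈ I_G`. -/
noncomputable def augElt (g : G) : (augIdeal G).V :=
  ⟨Pi.single g 1 - Pi.single 1 1, by
    rw [LinearMap.mem_ker, map_sub, aug_single, aug_single, sub_self]⟩

open Classical in
theorem augElt_coe (g : G) :
    ((augElt G g : (augIdeal G).V) : G → ℤ) = Pi.single g 1 - Pi.single 1 1 := rfl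

theorem augIdeal_ρ_augElt (g h : G) :
    (augIdeal G).ρ g (augElt G h) = augElt G (g * h) - augElt G g := by
  classical
  apply Subtype.ext
  change funRho G g (Pi.single h 1 - Pi.single 1 1) =
    (Pi.single (g * h) 1 - Pi.single 1 1) - (Pi.single g 1 - Pi.single 1 1)
  rw [map_sub, funRho_single, funRho_single, mul_one]
  abel

variable (S : Subgroup G)

/-- The canonical 1-cocycle `s ↦ s - 1` of a subgroup `S` with values in `I_G`. -/
noncomputable def augCocycle : cocycles₁ (res S.subtype (augIdeal G)) :=
  ⟨fun s => augElt G (s : G), (mem_cocycles₁_iff _).2 fun s t => by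
    change augElt G ((s * t : S) : G) =
      (augIdeal G).ρ (s : G) (augElt G (t : G)) + augElt G (s : G)
    rw [augIdeal_ρ_augElt, Subgroup.coe_mul]
    abel⟩

theorem augCocycle_apply (s : S) : augCocycle G S s = augElt G (s : G) := rfl

/-- Every 1-cocycle of `S` with values in `I_G` is an integer multiple of the canonical cocycle
`s ↦ s - 1` plus a coboundary. -/
theorem exists_eq_zsmul_augCocycle_add (c : cocycles₁ (res S.subtype (augIdeal G))) :
    ∃ (m : ℤ) (x : (augIdeal G).V), ∀ s : S,
      c s = m • augElt G (s : G) + ((augIdeal G).ρ (s : G) x - x) := by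
  classical
  have hc : ∀ s t : S, c (s * t) = (augIdeal G).ρ (s : G) (c t) + c s :=
    (mem_cocycles₁_iff _).1 c.2
  obtain ⟨y, hy⟩ := H73.exists_coboundary_of_isZero_H1 (res S.subtype (funRep G))
    (isZero_res_funRep G S 0) (fun s => ((c s : (augIdeal G).V) : G → ℤ)) (fun s t =>
      congrArg Subtype.val (hc s t))
  have hy' : ∀ s : S, ((c s : (augIdeal G).V) : G → ℤ) = funRho G (s : G) y - y := hy
  refine ⟨aug G y, ⟨y - aug G y • Pi.single 1 1, ?_⟩, fun s => ?_⟩
  · rw [LinearMap.mem_ker, map_sub, map_smul, aug_single, smul_eq_mul, mul_one, sub_self]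
  · apply Subtype.ext
    change ((c s : (augIdeal G).V) : G → ℤ) =
      aug G y • (Pi.single (s : G) 1 - Pi.single 1 1) +
        (funRho G (s : G) (y - aug G y • Pi.single 1 1) - (y - aug G y • Pi.single 1 1))
    rw [map_sub, map_smul, funRho_single, mul_one, hy' s, smul_sub]
    abel

/-- Every class of `H¹(S, I_G)` is an integer multiple of the class of `s ↦ s - 1`. -/
theorem H1_res_augIdeal_eq_zsmul (x : groupCohomology (res S.subtype (augIdeal G)) 1) :
    ∃ m : ℤ, x = m • H1π (res S.subtype (augIdeal G)) (augCocycle G S) := by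
  induction x using H1_induction_on with
  | h c =>
    obtain ⟨m, x, hx⟩ := exists_eq_zsmul_augCocycle_add G S c
    refine ⟨m, ?_⟩
    rw [← map_zsmul, H1π_eq_iff]
    refine ⟨x, ?_⟩
    funext s
    have h1 : c s - m • augElt G (s : G) = (augIdeal G).ρ (s : G) x - x := by
      rw [hx s]
      abel
    exact h1.symm

/-- An `S`-invariant element of `ℤ[G]` has augmentation divisible by `#S`. -/
theorem natCard_dvd_aug_of_invariant (y : G → ℤ) (hy : ∀ s : S, funRho G (s : G) y = y) :
    (Nat.card S : ℤ) ∣ aug G y := by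
  classical
  cases nonempty_fintype G
  obtain ⟨T, hT, -⟩ := Subgroup.exists_isComplement_right S 1
  have hy' : ∀ (s : S) (t : G), y ((s : G) * t) = y t := by
    intro s t
    have h := congrFun (hy s⁻¹) t
    rw [funRho_apply] at h
    simpa using h
  rw [aug_apply]
  let e : ↥(S : Set G) × ↥T ≃ G :=
    Equiv.ofBijective (fun x : ↥(S : Set G) × ↥T => x.1.1 * x.2.1) hT
  rw [← Fintype.sum_equiv e (fun p => y (p.1.1 * p.2.1)) y (fun p => rfl), Fintype.sum_prod_type]
  have h2 : ∀ s : ↥(S : Set G), ∑ t : T, y (s.1 * t.1) = ∑ t : T, y t.1 := fun s =>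
    Finset.sum_congr rfl (fun t _ => hy' ⟨s.1, s.2⟩ t.1)
  rw [Finset.sum_congr rfl (fun s _ => h2 s), Finset.sum_const, Finset.card_univ]
  refine ⟨∑ t : T, y t.1, ?_⟩
  rw [nsmul_eq_mul]
  congr 2
  exact (Nat.card_eq_fintype_card).symm

open Classical in
theorem aug_indicator : aug G (fun g => if g ∈ S then (1 : ℤ) else 0) = Nat.card S := by
  cases nonempty_fintype G
  rw [aug_apply, Finset.sum_boole, Nat.card_eq_fintype_card, Fintype.card_subtype]

omit [Finite G] in
open Classical in
theorem funRho_indicator (s : S) :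
    funRho G (s : G) (fun g => if g ∈ S then (1 : ℤ) else 0) =
      fun g => if g ∈ S then (1 : ℤ) else 0 := by
  funext x
  rw [funRho_apply]
  have h : (s : G)⁻¹ * x ∈ S ↔ x ∈ S := Subgroup.mul_mem_cancel_left _ (S.inv_mem s.2)
  simp only [h]

open Classical in
/-- `m • [s ↦ s - 1] = 0` in `H¹(S, I_G)` iff `#S ∣ m`. -/
theorem zsmul_H1π_augCocycle_eq_zero_iff (m : ℤ) :
    m • H1π (res S.subtype (augIdeal G)) (augCocycle G S) = 0 ↔ (Nat.card S : ℤ) ∣ m := by
  rw [← map_zsmul, H1π_eq_zero_iff]
  constructor
  · rintro ⟨x, hx⟩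
    have hx' : ∀ s : S, (augIdeal G).ρ (s : G) x - x = m • augElt G (s : G) := fun s =>
      congrFun hx s
    have hinv : ∀ s : S, funRho G (s : G) (m • Pi.single 1 1 - (x : G → ℤ)) =
        m • Pi.single 1 1 - (x : G → ℤ) := by
      intro s
      have h1 : funRho G (s : G) (x : G → ℤ) - (x : G → ℤ) =
          m • (Pi.single (s : G) 1 - Pi.single 1 1) := congrArg Subtype.val (hx' s)
      rw [map_sub, map_smul, funRho_single, mul_one]
      rw [smul_sub] at h1
      linear_combination (norm := abel) -h1
    have h2 := natCard_dvd_aug_of_invariant G S _ hinv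
    rwa [map_sub, map_smul, aug_single, augIdeal_aug, sub_zero, smul_eq_mul, mul_one] at h2
  · rintro ⟨j, rfl⟩
    refine ⟨⟨((Nat.card S : ℤ) * j) • Pi.single 1 1 -
      j • (fun g => if g ∈ S then (1 : ℤ) else 0), ?_⟩, ?_⟩
    · rw [LinearMap.mem_ker, map_sub, map_smul, map_smul, aug_single, aug_indicator]
      simp only [smul_eq_mul]
      ring
    · funext s
      apply Subtype.ext
      change funRho G (s : G) (((Nat.card S : ℤ) * j) • Pi.single 1 1 -
          j • (fun g => if g ∈ S then (1 : ℤ) else 0)) -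
        (((Nat.card S : ℤ) * j) • Pi.single 1 1 -
          j • (fun g => if g ∈ S then (1 : ℤ) else 0)) =
        ((Nat.card S : ℤ) * j) • (Pi.single (s : G) 1 - Pi.single 1 1)
      rw [map_sub, map_smul, map_smul, funRho_single, funRho_indicator, mul_one, smul_sub]
      abel


/-- **AUG-1**: `#H¹(S, I_G) = #S` for every subgroup `S` of the finite group `G`. -/
theorem natCard_H1_res_augIdeal :
    Nat.card (groupCohomology (res S.subtype (augIdeal G)) 1) = Nat.card S := by
  let φ : ℤ →+ groupCohomology (res S.subtype (augIdeal G)) 1 :=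
    zmultiplesHom _ (H1π (res S.subtype (augIdeal G)) (augCocycle G S))
  have hφ : ∀ m : ℤ, φ m = m • H1π (res S.subtype (augIdeal G)) (augCocycle G S) := fun m => rfl
  have hsurj : Function.Surjective φ := by
    intro x
    obtain ⟨m, hm⟩ := H1_res_augIdeal_eq_zsmul G S x
    exact ⟨m, hm.symm⟩
  have hker : φ.ker = AddSubgroup.zmultiples (Nat.card S : ℤ) := by
    ext m
    rw [AddMonoidHom.mem_ker, hφ, zsmul_H1π_augCocycle_eq_zero_iff, Int.mem_zmultiples_iff]
  have e := QuotientAddGroup.quotientKerEquivOfSurjective φ hsurj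
  rw [← Nat.card_congr e.toEquiv, hker,
    Nat.card_congr (Int.quotientZMultiplesNatEquivZMod (Nat.card S)).toEquiv, Nat.card_zmod]

/-- `H¹(S, ℤ) = 0` for a finite group `S` acting trivially on `ℤ`. -/
theorem isZero_H1_res_trivial :
    Limits.IsZero (groupCohomology (res S.subtype (Rep.trivial ℤ G ℤ)) 1) := by
  have hsub : Subsingleton (groupCohomology (res S.subtype (Rep.trivial ℤ G ℤ)) 1) := by
    refine ⟨fun a b => ?_⟩
    have h0 : ∀ x : groupCohomology (res S.subtype (Rep.trivial ℤ G ℤ)) 1, x = 0 := by
      intro x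
      induction x using H1_induction_on with
      | h c =>
        have hc : ∀ s t : S, c (s * t) = c t + c s := (mem_cocycles₁_iff _).1 c.2
        have hpow : ∀ (s : S) (n : ℕ), c (s ^ n) = n • c s := by
          intro s n
          induction n with
          | zero => simp
          | succ n ih => rw [pow_succ, hc, ih, succ_nsmul]; abel
        have hzero : ∀ s : S, c s = 0 := by
          intro s
          have h1 := hpow s (Nat.card S)
          rw [pow_card_eq_one', cocycles₁_map_one] at h1
          have h2 : (Nat.card S : ℤ) * c s = 0 := by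
            rw [← nsmul_eq_mul]
            exact h1.symm
          rcases mul_eq_zero.mp h2 with h3 | h3
          · exact absurd (Nat.cast_eq_zero.mp h3) Nat.card_pos.ne'
          · exact h3
        have : c = 0 := cocycles₁_ext (fun s => hzero s)
        rw [this, map_zero]
    rw [h0 a, h0 b]
  exact ModuleCat.isZero_of_subsingleton _

/-- **AUG-2**: `H²(S, I_G) = 0` for every subgroup `S` of the finite group `G`. -/
theorem isZero_H2_res_augIdeal :
    Limits.IsZero (groupCohomology (res S.subtype (augIdeal G)) 2) :=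
  (mapShortComplex₁_exact (augSES_res_shortExact G S) (i := 1) (j := 2) rfl).isZero_of_both_isZero
    (isZero_H1_res_trivial G S) (isZero_res_funRep G S 1)

end Cohomology

end Fermat.Agent.S55.H55.Aug
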