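/-
S55 (Poitou–Tate), helper55: the HOMOGENEOUS DICTIONARY for inhomogeneous cochains with values
in a coinduced representation, in ALL degrees.  Mathlib only.

For `W : Rep k H`, `H ≤ G`, `B := Rep.coind H.subtype W` (functions `f : G → W` with
`f (h * x) = h • f x`, `G` acting by right translation) and an inhomogeneous cochain
`φ : (Fin n → G) → B` put

  `homog φ y := (φ (fun i => (y i.castSucc)⁻¹ * y i.succ)).1 (y 0)`   (`y : Fin (n + 1) → G`).

* `homog_smul`   : `homog φ (h • y) = W.ρ h (homog φ y)` for `h ∈ H`;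
* `apply_eq_homog` : `(φ g).1 x = homog φ (x • Fin.partialProd g)`;
* `d_apply_eq_sum` : `((d φ) g).1 x = ∑ i, (-1) ^ i • homog φ ((x • Fin.partialProd g) ∘ i.succAbove)`
                    — the inhomogeneous differential is the alternating-face differential;
* `homog_d`      : `homog (d φ) y = ∑ i, (-1) ^ i • homog φ (y ∘ i.succAbove)`.
-/
import Mathlib

set_option autoImplicit false

open CategoryTheory

namespace Fermat.Agent.S55.H55.HomogDict

variable {k : Type} [CommRing k] {G : Type} [Group G] (H : Subgroup G) (W : Rep.{0} k H)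

/-- The homogeneous cochain attached to an inhomogeneous cochain with values in `coind W`. -/
def homog {n : ℕ} (φ : (Fin n → G) → (Rep.coind H.subtype W).V) (y : Fin (n + 1) → G) : W.V :=
  (φ (fun i => (y i.castSucc)⁻¹ * y i.succ)).1 (y 0)

theorem coind_ρ_apply (g : G) (f : (Rep.coind H.subtype W).V) (x : G) :
    ((Rep.coind H.subtype W).ρ g f).1 x = f.1 (x * g) := rfl

theorem homog_smul {n : ℕ} (φ : (Fin n → G) → (Rep.coind H.subtype W).V) (h : H)
    (y : Fin (n + 1) → G) :
    homog H W φ (fun i => (h : G) * y i) = W.ρ h (homog H W φ y) := by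
  unfold homog
  have e : (fun i : Fin n => ((h : G) * y i.castSucc)⁻¹ * ((h : G) * y i.succ)) =
      fun i => (y i.castSucc)⁻¹ * y i.succ := by
    funext i
    group
  rw [e]
  exact (φ fun i => (y i.castSucc)⁻¹ * y i.succ).2 h (y 0)

theorem apply_eq_homog {n : ℕ} (φ : (Fin n → G) → (Rep.coind H.subtype W).V) (g : Fin n → G)
    (x : G) : (φ g).1 x = homog H W φ (fun i => x * Fin.partialProd g i) := by
  unfold homog
  have e : (fun i : Fin n => (x * Fin.partialProd g i.castSucc)⁻¹ *
      (x * Fin.partialProd g i.succ)) = g := by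
    funext i
    rw [mul_inv_rev, mul_assoc, inv_mul_cancel_left, Fin.partialProd_right_inv]
  rw [e]
  show (φ g).1 x = (φ g).1 (x * Fin.partialProd g 0)
  rw [Fin.partialProd_zero, mul_one]

/-- **The inhomogeneous differential is the alternating-face differential** in homogeneous
coordinates, in every degree. -/
theorem d_apply_eq_sum {n : ℕ} (φ : (Fin n → G) → (Rep.coind H.subtype W).V)
    (g : Fin (n + 1) → G) (x : G) :
    ((inhomogeneousCochains.d (Rep.coind H.subtype W) n).hom φ g).1 x =
      ∑ i : Fin (n + 2), (-1 : k) ^ (i : ℕ) •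
        homog H W φ ((fun i => x * Fin.partialProd g i) ∘ i.succAbove) := by
  rw [inhomogeneousCochains.d_hom_apply]
  conv_rhs => rw [Fin.sum_univ_succ]
  -- evaluation at `x` as a linear map
  let ev : (Rep.coind H.subtype W).V →ₗ[k] W.V :=
    (LinearMap.proj x) ∘ₗ (Representation.coindV H.subtype W.ρ).subtype
  have hev : ∀ f : (Rep.coind H.subtype W).V, f.1 x = ev f := fun f => rfl
  rw [hev, map_add, map_sum]
  congr 1
  · -- the face `i = 0`
    show (φ fun i => g i.succ).1 (x * g 0) = (-1 : k) ^ ((0 : Fin (n + 2)) : ℕ) •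
      homog H W φ ((fun i => x * Fin.partialProd g i) ∘ (0 : Fin (n + 2)).succAbove)
    rw [Fin.val_zero, pow_zero, one_smul]
    unfold homog
    have e1 : (fun i : Fin n => (((fun i => x * Fin.partialProd g i) ∘
        (0 : Fin (n + 2)).succAbove) i.castSucc)⁻¹ *
        ((fun i => x * Fin.partialProd g i) ∘ (0 : Fin (n + 2)).succAbove) i.succ) =
        fun i => g i.succ := by
      funext i
      show (x * Fin.partialProd g ((0 : Fin (n + 2)).succAbove i.castSucc))⁻¹ *
        (x * Fin.partialProd g ((0 : Fin (n + 2)).succAbove i.succ)) = g i.succ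
      rw [Fin.succAbove_zero, mul_inv_rev, mul_assoc, inv_mul_cancel_left,
        Fin.succ_castSucc, Fin.partialProd_right_inv]
    have e2 : ((fun i => x * Fin.partialProd g i) ∘ (0 : Fin (n + 2)).succAbove) 0 =
        x * g 0 := by
      show x * Fin.partialProd g ((0 : Fin (n + 2)).succAbove 0) = x * g 0
      rw [Fin.succAbove_zero, Fin.partialProd_succ, Fin.castSucc_zero, Fin.partialProd_zero,
        one_mul]
    rw [e1, e2]
  · -- the faces `i = j + 1`
    refine Finset.sum_congr rfl fun j _ => ?_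
    rw [map_smul, Fin.val_succ]
    congr 1
    show (φ (Fin.contractNth j (· * ·) g)).1 x = homog H W φ
      ((fun i => x * Fin.partialProd g i) ∘ j.succ.succAbove)
    unfold homog
    have e1 : (fun i : Fin n => (((fun i => x * Fin.partialProd g i) ∘
        j.succ.succAbove) i.castSucc)⁻¹ *
        ((fun i => x * Fin.partialProd g i) ∘ j.succ.succAbove) i.succ) =
        Fin.contractNth j (· * ·) g := by
      funext i
      show (x * Fin.partialProd g (j.succ.succAbove i.castSucc))⁻¹ *
        (x * Fin.partialProd g (j.succ.succAbove i.succ)) = Fin.contractNth j (· * ·) g i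
      rw [mul_inv_rev, mul_assoc, inv_mul_cancel_left, Fin.succ_succAbove_succ,
        Fin.inv_partialProd_mul_eq_contractNth]
    have e2 : ((fun i => x * Fin.partialProd g i) ∘ j.succ.succAbove) 0 = x := by
      show x * Fin.partialProd g (j.succ.succAbove 0) = x
      rw [Fin.succ_succAbove_zero, Fin.partialProd_zero, mul_one]
    rw [e1, e2]

/-- The homogeneous cochain of `d φ` is the alternating sum of the faces of the homogeneous
cochain of `φ`. -/
theorem homog_d {n : ℕ} (φ : (Fin n → G) → (Rep.coind H.subtype W).V) (y : Fin (n + 2) → G) :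
    homog H W ((inhomogeneousCochains.d (Rep.coind H.subtype W) n).hom φ) y =
      ∑ i : Fin (n + 2), (-1 : k) ^ (i : ℕ) • homog H W φ (y ∘ i.succAbove) := by
  have h := d_apply_eq_sum H W φ (fun i => (y i.castSucc)⁻¹ * y i.succ) (y 0)
  have e : (fun i => y 0 * Fin.partialProd (fun i : Fin (n + 1) => (y i.castSucc)⁻¹ * y i.succ) i)
      = y := Fin.partialProd_left_inv y
  rw [e] at h
  exact h

/-- The inhomogeneous `coind W`-valued cochain attached to an `H`-equivariant homogeneous
cochain. -/
def ofHomog {n : ℕ} (K : (Fin (n + 1) → G) → W.V)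
    (hK : ∀ (h : H) (y : Fin (n + 1) → G), K (fun i => (h : G) * y i) = W.ρ h (K y))
    (g : Fin n → G) : (Rep.coind H.subtype W).V :=
  ⟨fun x => K (fun i => x * Fin.partialProd g i), fun h x => by
    have e := hK h (fun i => x * Fin.partialProd g i)
    simp only [← mul_assoc] at e
    exact e⟩

theorem ofHomog_apply {n : ℕ} (K : (Fin (n + 1) → G) → W.V)
    (hK : ∀ (h : H) (y : Fin (n + 1) → G), K (fun i => (h : G) * y i) = W.ρ h (K y))
    (g : Fin n → G) (x : G) :
    (ofHomog H W K hK g).1 x = K (fun i => x * Fin.partialProd g i) := rfl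

theorem homog_ofHomog {n : ℕ} (K : (Fin (n + 1) → G) → W.V)
    (hK : ∀ (h : H) (y : Fin (n + 1) → G), K (fun i => (h : G) * y i) = W.ρ h (K y)) :
    homog H W (ofHomog H W K hK) = K := by
  funext y
  show K (fun i => y 0 * Fin.partialProd (fun i : Fin n => (y i.castSucc)⁻¹ * y i.succ) i) = K y
  have e : (fun i => y 0 * Fin.partialProd (fun i : Fin n => (y i.castSucc)⁻¹ * y i.succ) i)
      = y := Fin.partialProd_left_inv y
  rw [e]

theorem ofHomog_homog {n : ℕ} (φ : (Fin n → G) → (Rep.coind H.subtype W).V) :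
    ofHomog H W (homog H W φ) (fun h y => homog_smul H W φ h y) = φ := by
  funext g
  apply Subtype.ext
  funext x
  exact (apply_eq_homog H W φ g x).symm

/-- Two `coind W`-valued cochains with the same homogeneous cochain are equal. -/
theorem homog_injective {n : ℕ} {φ ψ : (Fin n → G) → (Rep.coind H.subtype W).V}
    (h : homog H W φ = homog H W ψ) : φ = ψ := by
  funext g
  apply Subtype.ext
  funext x
  rw [apply_eq_homog, apply_eq_homog, h]

/-! ### The faces in low degrees -/

section Faces

variable {X : Type} {M : Type} [AddCommGroup M] [Module k M]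

omit [CommRing k] [Group G] in
theorem faces_three (a b c : X) :
    (![a, b, c] ∘ (0 : Fin 3).succAbove = ![b, c]) ∧
    (![a, b, c] ∘ (1 : Fin 3).succAbove = ![a, c]) ∧
    (![a, b, c] ∘ (2 : Fin 3).succAbove = ![a, b]) := by
  refine ⟨?_, ?_, ?_⟩ <;> · funext i; fin_cases i <;> rfl

omit [CommRing k] [Group G] in
theorem faces_four (a b c d : X) :
    (![a, b, c, d] ∘ (0 : Fin 4).succAbove = ![b, c, d]) ∧
    (![a, b, c, d] ∘ (1 : Fin 4).succAbove = ![a, c, d]) ∧
    (![a, b, c, d] ∘ (2 : Fin 4).succAbove = ![a, b, d]) ∧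
    (![a, b, c, d] ∘ (3 : Fin 4).succAbove = ![a, b, c]) := by
  refine ⟨?_, ?_, ?_, ?_⟩ <;> · funext i; fin_cases i <;> rfl

omit [CommRing k] [Group G] in
theorem faces_five (a b c d e : X) :
    (![a, b, c, d, e] ∘ (0 : Fin 5).succAbove = ![b, c, d, e]) ∧
    (![a, b, c, d, e] ∘ (1 : Fin 5).succAbove = ![a, c, d, e]) ∧
    (![a, b, c, d, e] ∘ (2 : Fin 5).succAbove = ![a, b, d, e]) ∧
    (![a, b, c, d, e] ∘ (3 : Fin 5).succAbove = ![a, b, c, e]) ∧
    (![a, b, c, d, e] ∘ (4 : Fin 5).succAbove = ![a, b, c, d]) := by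
  refine ⟨?_, ?_, ?_, ?_, ?_⟩ <;> · funext i; fin_cases i <;> rfl

omit [Group G] in
/-- The alternating sum of the three faces of a 2-simplex. -/
theorem sum_faces_three (K : (Fin 2 → X) → M) (a b c : X) :
    ∑ i : Fin 3, (-1 : k) ^ (i : ℕ) • K (![a, b, c] ∘ i.succAbove) =
      K ![b, c] - K ![a, c] + K ![a, b] := by
  obtain ⟨h0, h1, h2⟩ := faces_three a b c
  rw [Fin.sum_univ_three, h0, h1, h2]
  simp only [Fin.val_zero, Fin.val_one, Fin.val_two, pow_zero, pow_one, one_smul, neg_smul,
    even_two, Even.neg_pow, one_pow]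
  abel

omit [Group G] in
/-- The alternating sum of the four faces of a 3-simplex. -/
theorem sum_faces_four (K : (Fin 3 → X) → M) (a b c d : X) :
    ∑ i : Fin 4, (-1 : k) ^ (i : ℕ) • K (![a, b, c, d] ∘ i.succAbove) =
      K ![b, c, d] - K ![a, c, d] + K ![a, b, d] - K ![a, b, c] := by
  obtain ⟨h0, h1, h2, h3⟩ := faces_four a b c d
  rw [Fin.sum_univ_four, h0, h1, h2, h3]
  have e3 : ((3 : Fin 4) : ℕ) = 3 := rfl
  have p3 : (-1 : k) ^ 3 = -1 := by norm_num
  simp only [Fin.val_zero, Fin.val_one, Fin.val_two, e3, p3, pow_zero, pow_one, one_smul,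
    neg_smul, even_two, Even.neg_pow, one_pow]
  abel

omit [Group G] in
/-- The alternating sum of the five faces of a 4-simplex. -/
theorem sum_faces_five (K : (Fin 4 → X) → M) (a b c d e : X) :
    ∑ i : Fin 5, (-1 : k) ^ (i : ℕ) • K (![a, b, c, d, e] ∘ i.succAbove) =
      K ![b, c, d, e] - K ![a, c, d, e] + K ![a, b, d, e] - K ![a, b, c, e] +
        K ![a, b, c, d] := by
  obtain ⟨h0, h1, h2, h3, h4⟩ := faces_five a b c d e
  rw [Fin.sum_univ_five, h0, h1, h2, h3, h4]
  have e3 : ((3 : Fin 5) : ℕ) = 3 := rfl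
  have e4 : ((4 : Fin 5) : ℕ) = 4 := rfl
  have p3 : (-1 : k) ^ 3 = -1 := by norm_num
  have p4 : (-1 : k) ^ 4 = 1 := by norm_num
  simp only [Fin.val_zero, Fin.val_one, Fin.val_two, e3, e4, p3, p4, pow_zero, pow_one,
    one_smul, neg_smul, even_two, Even.neg_pow, one_pow]
  abel

end Faces

end Fermat.Agent.S55.H55.HomogDict
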