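/-
Program C (S55), package C8 (B4), leaf (CLS-INV), part 2 — helper55.

For a tower `k ⊆ K ⊆ L` with `K / k` normal and `L / k` finite Galois, `N = H88.fixSubgroup k K L`:
the bijections `J_K → (J_L)^N`, `C_K → (C_L)^N` of `IdeleInv.lean` are equivariant along
`H88.quotGalEquiv k K L : Gal(L/k) ⧸ N ≃* Gal(K/k)`, hence (pattern of `H79.quotH2Iso`)

* `ideleQuotIso k K L n : Hⁿ(Gal(L/k) ⧸ N, (J_L)^N) ≅ Hⁿ(Gal(K/k), J_K)`;
* `clsQuotIso k K L n   : Hⁿ(Gal(L/k) ⧸ N, (C_L)^N) ≅ Hⁿ(Gal(K/k), C_K)`;
* `cls_square` : they commute with the maps induced by `ideleClassProj`;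
* consumer corollaries: `natCard_cls_eq`, `isZero_idele_inv`, `isZero_cls_inv`,
  `surjective_mapH2_proj_iff`.
-/
import Mathlib
import Fermat.Agent.S55.H55.IdeleInv
import Fermat.Agent.S55.H29.C8H3

set_option autoImplicit false
set_option linter.unusedSectionVars false

open CategoryTheory groupCohomology Rep

noncomputable section

namespace Fermat.Agent.S55.H55.IdeleInv

open Fermat.Agent.S55.H88

section Generic

universe u

variable {R : Type u} {G H : Type u} [CommRing R] [Group G] [Group H]

/-- Naturality of `groupCohomology.mapIso` in the coefficient modules. -/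
theorem mapIso_square {A A' : Rep.{u} R H} {B B' : Rep.{u} R G} (e : G ≃* H)
    (e₁ : B.V ≃ₗ[R] A.V) (he₁ : ∀ g, e₁ ∘ₗ B.ρ g = A.ρ (e g) ∘ₗ e₁)
    (e₂ : B'.V ≃ₗ[R] A'.V) (he₂ : ∀ g, e₂ ∘ₗ B'.ρ g = A'.ρ (e g) ∘ₗ e₂)
    (f : B ⟶ B') (g : A ⟶ A') (hfg : ∀ y : B.V, e₂ (f.hom y) = g.hom (e₁ y)) (n : ℕ) :
    (functor R G n).map f ≫ (mapIso e e₂ he₂ n).hom =
      (mapIso e e₁ he₁ n).hom ≫ (functor R H n).map g := by
  show groupCohomology.map (MonoidHom.id G) f n ≫ groupCohomology.map _ _ n =
    groupCohomology.map _ _ n ≫ groupCohomology.map (MonoidHom.id H) g n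
  rw [← map_comp, ← map_comp]
  exact map_congr rfl (LinearMap.ext hfg) n

end Generic

section Iso

variable (k K L : Type) [Field k] [Field K] [Field L] [Algebra k K] [Algebra K L] [Algebra k L]
  [IsScalarTower k K L] [Normal k K] [IsGalois k L] [FiniteDimensional k L]

/-- `(J_L)^N ≃ J_K`. -/
def ideleInvEquiv :
    ((ideleRep k L).quotientToInvariants (fixSubgroup k K L)).V ≃ₗ[ℤ] (ideleRep k K).V :=
  haveI : Normal K L := Normal.tower_top_of_normal k K L
  (LinearEquiv.ofBijective (ideleToInv k K L) (ideleToInv_bijective k K L)).symm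

theorem ideleInvEquiv_toInv (x : (ideleRep k K).V) :
    haveI : Normal K L := Normal.tower_top_of_normal k K L
    ideleInvEquiv k K L (ideleToInv k K L x) = x :=
  haveI : Normal K L := Normal.tower_top_of_normal k K L
  (LinearEquiv.ofBijective (ideleToInv k K L) (ideleToInv_bijective k K L)).symm_apply_apply x

theorem ideleInv_comm (g : (L ≃ₐ[k] L) ⧸ fixSubgroup k K L) :
    (ideleInvEquiv k K L).toLinearMap ∘ₗ
        ((ideleRep k L).quotientToInvariants (fixSubgroup k K L)).ρ g =
      (ideleRep k K).ρ (quotGalEquiv k K L g) ∘ₗ (ideleInvEquiv k K L).toLinearMap := by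
  have : Normal K L := Normal.tower_top_of_normal k K L
  refine LinearMap.ext fun y => ?_
  obtain ⟨x, rfl⟩ := (ideleToInv_bijective k K L).2 y
  obtain ⟨σ, rfl⟩ := QuotientGroup.mk_surjective g
  have key : ((ideleRep k L).quotientToInvariants (fixSubgroup k K L)).ρ (QuotientGroup.mk σ)
      (ideleToInv k K L x) = ideleToInv k K L ((ideleRep k K).ρ (σ.restrictNormal K) x) := by
    refine Subtype.ext ?_
    exact congrArg Additive.ofMul (smul_ideleMap k K L σ (σ.restrictNormal K)
      (fun x => (AlgEquiv.restrictNormal_commutes σ K x).symm) (Additive.toMul x))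
  show ideleInvEquiv k K L (((ideleRep k L).quotientToInvariants (fixSubgroup k K L)).ρ
      (QuotientGroup.mk σ) (ideleToInv k K L x)) =
    (ideleRep k K).ρ (quotGalEquiv k K L (QuotientGroup.mk σ))
      (ideleInvEquiv k K L (ideleToInv k K L x))
  rw [key, ideleInvEquiv_toInv, ideleInvEquiv_toInv, quotGalEquiv_mk]

/-- `Hⁿ(Gal(L/k) ⧸ Gal(L/K), (J_L)^{Gal(L/K)}) ≅ Hⁿ(Gal(K/k), J_K)`. -/
def ideleQuotIso (n : ℕ) :
    groupCohomology ((ideleRep k L).quotientToInvariants (fixSubgroup k K L)) n ≅
      groupCohomology (ideleRep k K) n :=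
  mapIso (quotGalEquiv k K L) (ideleInvEquiv k K L) (ideleInv_comm k K L) n

variable [NumberField K] [NumberField L]

/-- `(C_L)^N ≃ C_K`. -/
def clsInvEquiv :
    ((ideleClassRep k L).quotientToInvariants (fixSubgroup k K L)).V ≃ₗ[ℤ]
      (ideleClassRep k K).V :=
  haveI : IsGalois K L := IsGalois.tower_top_of_isGalois k K L
  haveI : FiniteDimensional K L := Module.Finite.right k K L
  (LinearEquiv.ofBijective (clsToInv k K L) (clsToInv_bijective k K L)).symm

theorem clsInvEquiv_toInv (c : (ideleClassRep k K).V) :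
    haveI : IsGalois K L := IsGalois.tower_top_of_isGalois k K L
    haveI : FiniteDimensional K L := Module.Finite.right k K L
    clsInvEquiv k K L (clsToInv k K L c) = c :=
  haveI : IsGalois K L := IsGalois.tower_top_of_isGalois k K L
  haveI : FiniteDimensional K L := Module.Finite.right k K L
  (LinearEquiv.ofBijective (clsToInv k K L) (clsToInv_bijective k K L)).symm_apply_apply c

theorem clsInv_comm (g : (L ≃ₐ[k] L) ⧸ fixSubgroup k K L) :
    (clsInvEquiv k K L).toLinearMap ∘ₗ
        ((ideleClassRep k L).quotientToInvariants (fixSubgroup k K L)).ρ g =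
      (ideleClassRep k K).ρ (quotGalEquiv k K L g) ∘ₗ (clsInvEquiv k K L).toLinearMap := by
  have : IsGalois K L := IsGalois.tower_top_of_isGalois k K L
  have : FiniteDimensional K L := Module.Finite.right k K L
  refine LinearMap.ext fun y => ?_
  obtain ⟨c, rfl⟩ := (clsToInv_bijective k K L).2 y
  obtain ⟨x, rfl⟩ : ∃ x : (ideleRep k K).V, (ideleClassProj k K).hom x = c :=
    Submodule.mkQ_surjective (idelePrincipal k K) c
  obtain ⟨σ, rfl⟩ := QuotientGroup.mk_surjective g
  have key : ((ideleClassRep k L).quotientToInvariants (fixSubgroup k K L)).ρ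
      (QuotientGroup.mk σ) (clsToInv k K L ((ideleClassProj k K).hom x)) =
      clsToInv k K L ((ideleClassRep k K).ρ (σ.restrictNormal K)
        ((ideleClassProj k K).hom x)) := by
    refine Subtype.ext ?_
    exact congrArg (fun z : (ideleRep k L).V => (ideleClassProj k L).hom z)
      (congrArg Additive.ofMul (smul_ideleMap k K L σ (σ.restrictNormal K)
        (fun x => (AlgEquiv.restrictNormal_commutes σ K x).symm) (Additive.toMul x)))
  show clsInvEquiv k K L (((ideleClassRep k L).quotientToInvariants (fixSubgroup k K L)).ρ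
      (QuotientGroup.mk σ) (clsToInv k K L ((ideleClassProj k K).hom x))) =
    (ideleClassRep k K).ρ (quotGalEquiv k K L (QuotientGroup.mk σ))
      (clsInvEquiv k K L (clsToInv k K L ((ideleClassProj k K).hom x)))
  rw [key, clsInvEquiv_toInv, clsInvEquiv_toInv, quotGalEquiv_mk]

/-- `Hⁿ(Gal(L/k) ⧸ Gal(L/K), (C_L)^{Gal(L/K)}) ≅ Hⁿ(Gal(K/k), C_K)`. -/
def clsQuotIso (n : ℕ) :
    groupCohomology ((ideleClassRep k L).quotientToInvariants (fixSubgroup k K L)) n ≅
      groupCohomology (ideleClassRep k K) n :=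
  mapIso (quotGalEquiv k K L) (clsInvEquiv k K L) (clsInv_comm k K L) n

/-- Module-level square: the class projection corresponds to the class projection. -/
theorem clsInvEquiv_proj
    (y : ((ideleRep k L).quotientToInvariants (fixSubgroup k K L)).V) :
    clsInvEquiv k K L (((quotientToInvariantsFunctor ℤ (fixSubgroup k K L)).map
        (ideleClassProj k L)).hom y) =
      (ideleClassProj k K).hom (ideleInvEquiv k K L y) := by
  have : Normal K L := Normal.tower_top_of_normal k K L
  have : IsGalois K L := IsGalois.tower_top_of_isGalois k K L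
  have : FiniteDimensional K L := Module.Finite.right k K L
  obtain ⟨x, rfl⟩ := (ideleToInv_bijective k K L).2 y
  have key : ((quotientToInvariantsFunctor ℤ (fixSubgroup k K L)).map
      (ideleClassProj k L)).hom (ideleToInv k K L x) =
      clsToInv k K L ((ideleClassProj k K).hom x) := Subtype.ext rfl
  rw [key, clsInvEquiv_toInv, ideleInvEquiv_toInv]

/-- **The square** `Hⁿ(G/N, (J_L)^N) → Hⁿ(G/N, (C_L)^N)` versus `Hⁿ(Gal(K/k), J_K) →
Hⁿ(Gal(K/k), C_K)`. -/
theorem cls_square (n : ℕ) :
    (functor ℤ ((L ≃ₐ[k] L) ⧸ fixSubgroup k K L) n).map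
        ((quotientToInvariantsFunctor ℤ (fixSubgroup k K L)).map (ideleClassProj k L)) ≫
      (clsQuotIso k K L n).hom =
    (ideleQuotIso k K L n).hom ≫ (functor ℤ (K ≃ₐ[k] K) n).map (ideleClassProj k K) :=
  mapIso_square (quotGalEquiv k K L) (ideleInvEquiv k K L) (ideleInv_comm k K L)
    (clsInvEquiv k K L) (clsInv_comm k K L) _ _ (clsInvEquiv_proj k K L) n

/-- The square, elementwise, in the notation of `H29.mapHn`. -/
theorem cls_square_apply (n : ℕ)
    (y : groupCohomology ((ideleRep k L).quotientToInvariants (fixSubgroup k K L)) n) :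
    (clsQuotIso k K L n).hom.hom
        (H29.mapHn n ((quotientToInvariantsFunctor ℤ (fixSubgroup k K L)).map
          (ideleClassProj k L)) y) =
      H29.mapHn n (ideleClassProj k K) ((ideleQuotIso k K L n).hom.hom y) :=
  congrArg (fun f => f.hom y) (cls_square k K L n)

/-- Surjectivity of `Hⁿ(J) → Hⁿ(C)` passes from the layer `K / k` to the invariants of the layer
`L / k` (the hypothesis `hsurj` of `H29.lift_of_towers` for `n = 2`). -/
theorem surjective_mapHn_inv (n : ℕ)
    (h : Function.Surjective (H29.mapHn n (ideleClassProj k K))) :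
    Function.Surjective (H29.mapHn n
      ((quotientToInvariantsFunctor ℤ (fixSubgroup k K L)).map (ideleClassProj k L))) := by
  intro c
  obtain ⟨y', hy'⟩ := h ((clsQuotIso k K L n).hom.hom c)
  refine ⟨(ideleQuotIso k K L n).inv.hom y', ?_⟩
  have hinj : Function.Injective (clsQuotIso k K L n).hom.hom :=
    (ConcreteCategory.bijective_of_isIso (clsQuotIso k K L n).hom).1
  apply hinj
  rw [cls_square_apply, ← hy']
  congr 1
  exact congrArg (fun f => f.hom y') (ideleQuotIso k K L n).inv_hom_id

theorem surjective_mapH2_inv (h : Function.Surjective (H29.mapH2 (ideleClassProj k K))) :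
    Function.Surjective (H29.mapH2
      ((quotientToInvariantsFunctor ℤ (fixSubgroup k K L)).map (ideleClassProj k L))) :=
  surjective_mapHn_inv k K L 2 h

/-- `#Hⁿ(Gal(L/k) ⧸ N, (C_L)^N) = #Hⁿ(Gal(K/k), C_K)`. -/
theorem natCard_cls_inv (n : ℕ) :
    Nat.card (groupCohomology ((ideleClassRep k L).quotientToInvariants (fixSubgroup k K L)) n) =
      Nat.card (groupCohomology (ideleClassRep k K) n) :=
  Nat.card_congr (clsQuotIso k K L n).toLinearEquiv.toEquiv

theorem isZero_cls_inv (n : ℕ) (h : Limits.IsZero (groupCohomology (ideleClassRep k K) n)) :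
    Limits.IsZero
      (groupCohomology ((ideleClassRep k L).quotientToInvariants (fixSubgroup k K L)) n) :=
  h.of_iso (clsQuotIso k K L n)

end Iso

section IsoIdele

variable (k K L : Type) [Field k] [Field K] [Field L] [Algebra k K] [Algebra K L] [Algebra k L]
  [IsScalarTower k K L] [Normal k K] [IsGalois k L] [FiniteDimensional k L]

/-- `#Hⁿ(Gal(L/k) ⧸ N, (J_L)^N) = #Hⁿ(Gal(K/k), J_K)`. -/
theorem natCard_idele_inv (n : ℕ) :
    Nat.card (groupCohomology ((ideleRep k L).quotientToInvariants (fixSubgroup k K L)) n) =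
      Nat.card (groupCohomology (ideleRep k K) n) :=
  Nat.card_congr (ideleQuotIso k K L n).toLinearEquiv.toEquiv

theorem isZero_idele_inv (n : ℕ) (h : Limits.IsZero (groupCohomology (ideleRep k K) n)) :
    Limits.IsZero
      (groupCohomology ((ideleRep k L).quotientToInvariants (fixSubgroup k K L)) n) :=
  h.of_iso (ideleQuotIso k K L n)

end IsoIdele

end Fermat.Agent.S55.H55.IdeleInv
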