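/-
S55 (Poitou–Tate), package C1, leaf C1-c (backup copy, helper55): inflation–restriction in
degree 2.  For a normal subgroup `S` of `G` and a `G`-representation `A` with `H¹(S, A) = 0`:

* a class of `H²(G, A)` whose restriction to `S` vanishes is inflated from `H²(G ⧸ S, A^S)`.

Everything is done on Mathlib's explicit `cocycles₂` / `H2π` description.
-/
import Mathlib

set_option autoImplicit false

universe u

open CategoryTheory groupCohomology Rep

namespace Fermat.Agent.S55.H55.InfRes2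

variable {k G : Type u} [CommRing k] [Group G]

section Rep

variable (S : Subgroup G) [S.Normal]

/-- The chosen representative of the coset `g S`. -/
noncomputable def rep (g : G) : G := (QuotientGroup.mk g : G ⧸ S).out

omit [S.Normal] in
lemma rep_inv_mul_mem (g : G) : (rep S g)⁻¹ * g ∈ S := by
  have h : (QuotientGroup.mk (rep S g) : G ⧸ S) = QuotientGroup.mk g := QuotientGroup.out_eq' _
  exact QuotientGroup.eq.mp h

omit [S.Normal] in
lemma inv_mul_rep_mem (g : G) : g⁻¹ * rep S g ∈ S := by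
  have h := S.inv_mem (rep_inv_mul_mem S g)
  simpa [mul_inv_rev] using h

omit [S.Normal] in
lemma rep_mul_of_mem (g : G) {s : G} (hs : s ∈ S) : rep S (g * s) = rep S g := by
  unfold rep
  rw [QuotientGroup.mk_mul_of_mem g hs]

lemma rep_mul_of_mem_left (g : G) {s : G} (hs : s ∈ S) : rep S (s * g) = rep S g := by
  unfold rep
  rw [QuotientGroup.mk_mul, (QuotientGroup.eq_one_iff s).2 hs, one_mul]

omit [S.Normal] in
lemma rep_mem {s : G} (hs : s ∈ S) : rep S s ∈ S := by
  have h := S.mul_mem hs (inv_mul_rep_mem S s)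
  simpa using h

omit [S.Normal] in
lemma rep_mk (g : G) : rep S g = g * (g⁻¹ * rep S g) := by group

end Rep

section Cochains

variable (A : Rep k G) (S : Subgroup G) [S.Normal]

/-- For a 2-cocycle `f` vanishing on `S × S` and `t : G`, the function
`s ↦ f (s, t) - f (t, t⁻¹ s t)` is a 1-cocycle on `S`. -/
theorem gamma_cocycle (f : G × G → A) (hf : f ∈ cocycles₂ A)
    (h0 : ∀ s ∈ S, ∀ t ∈ S, f (s, t) = 0) (t : G) {s s' : G} (hs : s ∈ S) (hs' : s' ∈ S) :
    f (s * s', t) - f (t, t⁻¹ * (s * s') * t) =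
      A.ρ s (f (s', t) - f (t, t⁻¹ * s' * t)) + (f (s, t) - f (t, t⁻¹ * s * t)) := by
  have hc := (mem_cocycles₂_iff f).1 hf
  have ca := hc s s' t
  have cb := hc s t (t⁻¹ * s' * t)
  have cc := hc t (t⁻¹ * s * t) (t⁻¹ * s' * t)
  have e1 : t * (t⁻¹ * s' * t) = s' * t := by group
  have e2 : t * (t⁻¹ * s * t) = s * t := by group
  have e3 : t⁻¹ * s * t * (t⁻¹ * s' * t) = t⁻¹ * (s * s') * t := by group
  rw [e1] at cb
  rw [e2, e3, h0 _ (Subgroup.Normal.conj_mem' ‹_› _ hs _) _ (Subgroup.Normal.conj_mem' ‹_› _ hs' _),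
    map_zero] at cc
  have z := h0 s hs s' hs'
  rw [map_sub]
  linear_combination (norm := abel) ca - cb + cc - z

/-- The normalisation step: a 2-cocycle vanishing on `S × S` is, up to a coboundary, zero on
`G × S` and on `S × G`, provided every 1-cocycle of `S` is a coboundary. -/
theorem exists_normalize (f : G × G → A) (hf : f ∈ cocycles₂ A)
    (h0 : ∀ s ∈ S, ∀ t ∈ S, f (s, t) = 0)
    (hH1 : ∀ γ : G → A, (∀ s ∈ S, ∀ s' ∈ S, γ (s * s') = A.ρ s (γ s') + γ s) →
      ∃ a : A, ∀ s ∈ S, γ s = A.ρ s a - a) :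
    ∃ u : G → A, (∀ g, ∀ s ∈ S, f (g, s) = A.ρ g (u s) - u (g * s) + u g) ∧
      (∀ g, ∀ s ∈ S, f (s, g) = A.ρ s (u g) - u (s * g) + u s) := by
  classical
  have hc := (mem_cocycles₂_iff f).1 hf
  -- the elements `a_t`
  have hex : ∀ t : G, ∃ a : A, (t ∈ S → a = 0) ∧
      ∀ s ∈ S, f (s, t) - f (t, t⁻¹ * s * t) = A.ρ s a - a := by
    intro t
    by_cases ht : t ∈ S
    · refine ⟨0, fun _ => rfl, fun s hs => ?_⟩
      rw [h0 s hs t ht, h0 t ht _ (Subgroup.Normal.conj_mem' ‹_› _ hs _)]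
      simp
    · obtain ⟨a, ha⟩ := hH1 (fun s => f (s, t) - f (t, t⁻¹ * s * t))
        (fun s hs s' hs' => gamma_cocycle A S f hf h0 t hs hs')
      exact ⟨a, fun h => absurd h ht, ha⟩
  choose a ha0 ha using hex
  refine ⟨fun g => a (rep S g) - f (rep S g, (rep S g)⁻¹ * g), ?_, ?_⟩
  · -- vanishing on `G × S`
    intro g s hs
    have hus : a (rep S s) - f (rep S s, (rep S s)⁻¹ * s) = 0 := by
      rw [ha0 _ (rep_mem S hs), h0 _ (rep_mem S hs) _ (rep_inv_mul_mem S s)]
      simp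
    have c := hc (rep S g) ((rep S g)⁻¹ * g) s
    rw [mul_inv_cancel_left, h0 _ (rep_inv_mul_mem S g) s hs, map_zero] at c
    have e : (rep S g)⁻¹ * (g * s) = (rep S g)⁻¹ * g * s := by group
    simp only [rep_mul_of_mem S g hs]
    rw [hus, map_zero, e]
    linear_combination (norm := abel) c
  · -- vanishing on `S × G`
    intro g s hs
    have hus : a (rep S s) - f (rep S s, (rep S s)⁻¹ * s) = 0 := by
      rw [ha0 _ (rep_mem S hs), h0 _ (rep_mem S hs) _ (rep_inv_mul_mem S s)]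
      simp
    set τ := rep S g with hτ
    have c1 := hc s τ (τ⁻¹ * g)
    rw [mul_inv_cancel_left] at c1
    have c2 := hc τ (τ⁻¹ * s * τ) (τ⁻¹ * g)
    have e1 : τ * (τ⁻¹ * s * τ) = s * τ := by group
    have e2 : τ⁻¹ * s * τ * (τ⁻¹ * g) = τ⁻¹ * (s * g) := by group
    rw [e1, e2, h0 _ (Subgroup.Normal.conj_mem' ‹_› _ hs _) _ (rep_inv_mul_mem S g),
      map_zero] at c2
    have hγ := ha τ s hs
    simp only [rep_mul_of_mem_left S g hs]
    rw [hus, ← hτ, map_sub]
    linear_combination (norm := abel) -c1 + c2 + hγ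

/-- A 2-cocycle vanishing on `G × S` and on `S × G` is constant on cosets of `S` in both
variables and takes `S`-invariant values. -/
theorem invariance (f : G × G → A) (hf : f ∈ cocycles₂ A)
    (hA : ∀ g, ∀ s ∈ S, f (g, s) = 0) (hB : ∀ g, ∀ s ∈ S, f (s, g) = 0) :
    (∀ g h, ∀ s ∈ S, f (g, h * s) = f (g, h)) ∧ (∀ g h, ∀ s ∈ S, f (g * s, h) = f (g, h)) ∧
      (∀ g h, ∀ s ∈ S, A.ρ s (f (g, h)) = f (g, h)) := by
  have hc := (mem_cocycles₂_iff f).1 hf
  have h1 : ∀ g h, ∀ s ∈ S, f (g, h * s) = f (g, h) := by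
    intro g h s hs
    have c := hc g h s
    rw [hA _ s hs, hA _ s hs, map_zero] at c
    linear_combination (norm := abel) -c
  have h2 : ∀ g h, ∀ s ∈ S, f (g * s, h) = f (g, h) := by
    intro g h s hs
    have c := hc g s h
    rw [hA _ s hs, hB _ s hs, map_zero] at c
    have e : s * h = h * (h⁻¹ * s * h) := by group
    rw [e, h1 g h _ (Subgroup.Normal.conj_mem' ‹_› _ hs _)] at c
    linear_combination (norm := abel) c
  refine ⟨h1, h2, fun g h s hs => ?_⟩
  have c := hc s g h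
  rw [hB _ s hs, hB _ s hs] at c
  have e : s * g = g * (g⁻¹ * s * g) := by group
  rw [e, h2 g h _ (Subgroup.Normal.conj_mem' ‹_› _ hs _)] at c
  linear_combination (norm := abel) -c

end Cochains

section Main

variable (A : Rep k G) (S : Subgroup G) [S.Normal]

omit [S.Normal] in
/-- `H¹(S, A) = 0` in elementwise form. -/
theorem exists_coboundary_of_isZero
    (h1 : Limits.IsZero (groupCohomology (res S.subtype A) 1))
    (γ : G → A) (hγ : ∀ s ∈ S, ∀ s' ∈ S, γ (s * s') = A.ρ s (γ s') + γ s) :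
    ∃ a : A, ∀ s ∈ S, γ s = A.ρ s a - a := by
  have hmem : (fun s : S => γ s.1) ∈ cocycles₁ (res S.subtype A) := by
    rw [mem_cocycles₁_iff]
    intro s t
    exact hγ s.1 s.2 t.1 t.2
  have hsub : Subsingleton (groupCohomology (res S.subtype A) 1) :=
    ModuleCat.subsingleton_of_isZero h1
  have hz : H1π (res S.subtype A) ⟨_, hmem⟩ = 0 := Subsingleton.elim _ _
  obtain ⟨a, ha⟩ := (H1π_eq_zero_iff _).1 hz
  refine ⟨a, fun s hs => ?_⟩
  have := congr_fun ha ⟨s, hs⟩
  exact this.symm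

/-- **Inflation–restriction in degree 2, exactness in the middle.**  If `H¹(S, A) = 0`, a class
of `H²(G, A)` whose restriction to `S` vanishes is inflated from `H²(G ⧸ S, A^S)`. -/
theorem exists_inf_eq_of_res_eq_zero
    (h1 : Limits.IsZero (groupCohomology (res S.subtype A) 1)) (x : groupCohomology A 2)
    (hx : (map S.subtype (𝟙 (res S.subtype A)) 2).hom x = 0) :
    ∃ y : groupCohomology (A.quotientToInvariants S) 2,
      (map (QuotientGroup.mk' S) (ofHom <| A.ρ.quotientToInvariants_lift S) 2).hom y = x := by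
  classical
  induction x using H2_induction_on with | h f => ?_
  rw [H2π_comp_map_apply] at hx
  obtain ⟨b₀, hb₀⟩ := (H2π_eq_zero_iff _).1 hx
  have hb : ∀ s t : S, f (s.1, t.1) = A.ρ s.1 (b₀ t) - b₀ (s * t) + b₀ s := by
    intro s t
    have := congr_fun hb₀ (s, t)
    exact this.symm
  set bt : G → A := fun g => if h : g ∈ S then b₀ ⟨g, h⟩ else 0 with hbt
  set f₁ : G × G → A := ⇑f - (d₁₂ A).hom bt with hf₁
  have hf₁mem : f₁ ∈ cocycles₂ A := Submodule.sub_mem _ f.2 (d₁₂_apply_mem_cocycles₂ bt)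
  have h0 : ∀ s ∈ S, ∀ t ∈ S, f₁ (s, t) = 0 := by
    intro s hs t ht
    have h := hb ⟨s, hs⟩ ⟨t, ht⟩
    simp only [hf₁, Pi.sub_apply, d₁₂_hom_apply, hbt, dif_pos hs, dif_pos ht,
      dif_pos (S.mul_mem hs ht)]
    rw [sub_eq_zero]
    exact h
  obtain ⟨u, hA, hB⟩ := exists_normalize A S f₁ hf₁mem h0 (exists_coboundary_of_isZero A S h1)
  set f' : G × G → A := f₁ - (d₁₂ A).hom u with hf'
  have hf'mem : f' ∈ cocycles₂ A := Submodule.sub_mem _ hf₁mem (d₁₂_apply_mem_cocycles₂ u)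
  have hA' : ∀ g, ∀ s ∈ S, f' (g, s) = 0 := by
    intro g s hs
    simp only [hf', Pi.sub_apply, d₁₂_hom_apply]
    rw [sub_eq_zero]
    exact hA g s hs
  have hB' : ∀ g, ∀ s ∈ S, f' (s, g) = 0 := by
    intro g s hs
    simp only [hf', Pi.sub_apply, d₁₂_hom_apply]
    rw [sub_eq_zero]
    exact hB g s hs
  obtain ⟨i1, i2, i3⟩ := invariance A S f' hf'mem hA' hB'
  have hrep : ∀ g h, f' (rep S g, rep S h) = f' (g, h) := by
    intro g h
    rw [rep_mk S g, rep_mk S h, i2 _ _ _ (inv_mul_rep_mem S g), i1 _ _ _ (inv_mul_rep_mem S h)]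
  have hc' := (mem_cocycles₂_iff f').1 hf'mem
  let F : (G ⧸ S) × (G ⧸ S) → A.quotientToInvariants S :=
    fun p => ⟨f' (p.1.out, p.2.out), fun s => i3 _ _ s.1 s.2⟩
  have hFval : ∀ g h : G, ((F (QuotientGroup.mk g, QuotientGroup.mk h)) : A) = f' (g, h) :=
    fun g h => hrep g h
  have hFmem : F ∈ cocycles₂ (A.quotientToInvariants S) := by
    rw [mem_cocycles₂_iff]
    intro x y z
    induction x using QuotientGroup.induction_on with | H g =>
    induction y using QuotientGroup.induction_on with | H h =>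
    induction z using QuotientGroup.induction_on with | H j =>
    apply Subtype.ext
    rw [← QuotientGroup.mk_mul, ← QuotientGroup.mk_mul]
    change ((F (QuotientGroup.mk (g * h), QuotientGroup.mk j)) : A) +
        ((F (QuotientGroup.mk g, QuotientGroup.mk h)) : A) =
      A.ρ g ((F (QuotientGroup.mk h, QuotientGroup.mk j)) : A) +
        ((F (QuotientGroup.mk g, QuotientGroup.mk (h * j))) : A)
    rw [hFval, hFval, hFval, hFval]
    exact hc' g h j
  refine ⟨H2π _ ⟨F, hFmem⟩, ?_⟩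
  rw [H2π_comp_map_apply, H2π_eq_iff]
  refine ⟨-(bt + u), ?_⟩
  ext ⟨g, h⟩
  have e1 : (mapCocycles₂ (QuotientGroup.mk' S) (ofHom <| A.ρ.quotientToInvariants_lift S)
      ⟨F, hFmem⟩ : G × G → A) (g, h) = f' (g, h) := hFval g h
  rw [Pi.sub_apply, e1, map_neg, map_add]
  simp only [hf', hf₁, Pi.sub_apply, Pi.neg_apply, Pi.add_apply]
  abel

end Main

end Fermat.Agent.S55.H55.InfRes2
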