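/-
S55 (Poitou–Tate), package C6 (first inequality, designer helper50), leaf (KEX) (helper55):
the Kummer extension `k(g^{1/p})` of a number field `k ∋ μ_p` exists as a number field, is
Galois of degree `p`, with a generator of the Galois group.  Mathlib only.

`exists_kummerLayer_core` has exactly the content of `H50.KummerLayerExistsStatement`
(`H50.pPow p kˣ = (powMonoidHom p).range`, `H50.KummerLayer` = the tuple `(α, σ, …)` below).
-/
import Mathlib

set_option autoImplicit false

open Polynomial

namespace Fermat.Agent.S55.H55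

universe u

/-- **(KEX), core form.**  For a number field `k` containing a primitive `p`-th root of unity
(`p` prime) and `g ∈ kˣ` not a `p`-th power, there is a number field `N ⊇ k`, `N = k(α)`,
`α ^ p = g`, Galois of degree `p` over `k`, whose Galois group is generated by one element. -/
theorem exists_kummerLayer_core (k : Type u) [Field k] [NumberField k] (p : ℕ) (hp : p.Prime)
    (ζ : k) (hζ : IsPrimitiveRoot ζ p) (g : kˣ) (hg : ∀ c : kˣ, c ^ p ≠ g) :
    ∃ (N : Type u) (_ : Field N) (_ : NumberField N) (_ : Algebra k N) (α : N)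
      (σ : N ≃ₐ[k] N), α ^ p = algebraMap k N (g : k) ∧ Module.finrank k N = p ∧
        IsGalois k N ∧ ∀ τ : N ≃ₐ[k] N, τ ∈ Subgroup.zpowers σ := by
  have hg' : ∀ b : k, b ^ p ≠ (g : k) := by
    intro b hb
    have hb0 : b ≠ 0 := by
      rintro rfl
      rw [zero_pow hp.ne_zero] at hb
      exact g.ne_zero hb.symm
    exact hg (Units.mk0 b hb0) (Units.ext (by simpa using hb))
  have H : Irreducible (X ^ p - C (g : k)) := X_pow_sub_C_irreducible_of_prime hp hg'
  have := Fact.mk H
  have hprim : (primitiveRoots p k).Nonempty := ⟨ζ, (mem_primitiveRoots hp.pos).2 hζ⟩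
  have : NeZero p := ⟨hp.ne_zero⟩
  have hsf : IsSplittingField k (AdjoinRoot (X ^ p - C (g : k))) (X ^ p - C (g : k)) :=
    isSplittingField_AdjoinRoot_X_pow_sub_C hprim H
  have : FiniteDimensional k (AdjoinRoot (X ^ p - C (g : k))) :=
    IsSplittingField.finiteDimensional _ (X ^ p - C (g : k))
  have hNF : NumberField (AdjoinRoot (X ^ p - C (g : k))) := NumberField.of_module_finite k _
  have hcyc : IsCyclic ((AdjoinRoot (X ^ p - C (g : k))) ≃ₐ[k] (AdjoinRoot (X ^ p - C (g : k)))) :=
    isCyclic_of_isSplittingField_X_pow_sub_C hprim H _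
  obtain ⟨σ, hσ⟩ := hcyc.exists_generator
  refine ⟨AdjoinRoot (X ^ p - C (g : k)), inferInstance, hNF, inferInstance,
    AdjoinRoot.root _, σ, ?_, ?_, ?_, hσ⟩
  · have h := AdjoinRoot.eval₂_root (X ^ p - C (g : k))
    simpa [sub_eq_zero] using h
  · exact finrank_of_isSplittingField_X_pow_sub_C hprim H _
  · exact isGalois_of_isSplittingField_X_pow_sub_C hprim H _

end Fermat.Agent.S55.H55
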