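/-
Program C (S55), package C8 (B4), Galois-theoretic bookkeeping for the (LIFT) assembly
(`H29.LiftStatement`, `H29/C8Cls.lean`) — helper55.  Mathlib + `H88.fixSubgroup` only.

* `galTopToGal k K E L : Gal(L/K) →* Gal(E/k)` (restriction), injective when
  `fixSubgroup k K L ⊓ fixSubgroup k E L = ⊥` (`L = K·E`);
* `isCyclic_gal_top`, `natCard_gal_top_dvd`, `exists_finrank_top_eq_pow` : then `L/K` is cyclic
  and `[L : K] ∣ [E : k]`; if `[E : k] = p ^ a` then `[L : K] = p ^ b`;
* `exists_sylow_field` : for `K/k` Galois with `[K : k] = p ^ a * m'`, `p ∤ m'`, the fixed field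
  `K'` of a Sylow `p`-subgroup, as a TYPE with all instances: `[K' : k] = m'`, `[K : K'] = p ^ a`;
* `exists_index_p_field` : for `K/k` Galois with `[K : k] = p ^ (n + 1)`, the fixed field `K₁` of
  a normal subgroup of index `p`, as a TYPE: `K₁/k` Galois cyclic of degree `p`,
  `[K : K₁] = p ^ n`.
-/
import Mathlib
import Fermat.Agent.S55.H88.TowerData

set_option autoImplicit false
set_option linter.unusedSectionVars false

noncomputable section

namespace Fermat.Agent.S55.H55.LiftAux

open Fermat.Agent.S55.H88 Module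

section Top

variable (k K E L : Type) [Field k] [Field K] [Field E] [Field L] [Algebra k K] [Algebra k E]
  [Algebra k L] [Algebra K L] [Algebra E L] [IsScalarTower k K L] [IsScalarTower k E L]
  [Normal k E] [Normal k L]

/-- Restriction `Gal(L/K) →* Gal(E/k)`. -/
def galTopToGal : (L ≃ₐ[K] L) →* (E ≃ₐ[k] E) :=
  (AlgEquiv.restrictNormalHom (F := k) (K₁ := L) E).comp
    ((fixSubgroup k K L).subtype.comp (galToFix k K L))

theorem galTopToGal_injective (h : fixSubgroup k K L ⊓ fixSubgroup k E L = ⊥) :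
    Function.Injective (galTopToGal k K E L) := by
  rw [injective_iff_map_eq_one]
  intro σ hσ
  have h1 : ((galToFix k K L σ : fixSubgroup k K L) : L ≃ₐ[k] L) ∈ fixSubgroup k E L := by
    rw [fixSubgroup_eq_ker, MonoidHom.mem_ker]
    exact hσ
  have h2 : ((galToFix k K L σ : fixSubgroup k K L) : L ≃ₐ[k] L) ∈
      fixSubgroup k K L ⊓ fixSubgroup k E L := ⟨(galToFix k K L σ).2, h1⟩
  rw [h, Subgroup.mem_bot] at h2
  refine AlgEquiv.ext fun x => ?_
  exact congrArg (fun τ : L ≃ₐ[k] L => τ x) h2

theorem isCyclic_gal_top [IsCyclic (E ≃ₐ[k] E)]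
    (h : fixSubgroup k K L ⊓ fixSubgroup k E L = ⊥) : IsCyclic (L ≃ₐ[K] L) :=
  isCyclic_of_injective (galTopToGal k K E L) (galTopToGal_injective k K E L h)

theorem natCard_gal_top_dvd (h : fixSubgroup k K L ⊓ fixSubgroup k E L = ⊥) :
    Nat.card (L ≃ₐ[K] L) ∣ Nat.card (E ≃ₐ[k] E) :=
  Subgroup.card_dvd_of_injective (galTopToGal k K E L) (galTopToGal_injective k K E L h)

theorem exists_finrank_top_eq_pow [FiniteDimensional k E] [IsGalois k E] [FiniteDimensional K L]
    [IsGalois K L] (h : fixSubgroup k K L ⊓ fixSubgroup k E L = ⊥) {p a : ℕ} (hp : p.Prime)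
    (hE : finrank k E = p ^ a) : ∃ b : ℕ, b ≤ a ∧ finrank K L = p ^ b := by
  have h1 := natCard_gal_top_dvd k K E L h
  rw [IsGalois.card_aut_eq_finrank, IsGalois.card_aut_eq_finrank, hE] at h1
  exact (Nat.dvd_prime_pow hp).1 h1

end Top

section Fields

variable (k K : Type) [Field k] [Field K] [Algebra k K] [FiniteDimensional k K] [IsGalois k K]

/-- The fixed field of a Sylow `p`-subgroup: `[K' : k] = m'`, `[K : K'] = p ^ a`. -/
theorem exists_sylow_field {p : ℕ} (hp : p.Prime) {a m' : ℕ} (hm' : ¬ p ∣ m')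
    (hK : finrank k K = p ^ a * m') :
    ∃ K' : IntermediateField k K, finrank k K' = m' ∧ finrank K' K = p ^ a := by
  have : Fact p.Prime := ⟨hp⟩
  obtain ⟨P⟩ : Nonempty (Sylow p (K ≃ₐ[k] K)) := inferInstance
  have hm0 : m' ≠ 0 := by
    rintro rfl
    exact hm' (dvd_zero p)
  have hcard : Nat.card (K ≃ₐ[k] K) = p ^ a * m' := by
    rw [IsGalois.card_aut_eq_finrank, hK]
  have hfact : (p ^ a * m').factorization p = a := by
    rw [Nat.factorization_mul (pow_ne_zero _ hp.ne_zero) hm0, Finsupp.add_apply,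
      hp.factorization_pow, Finsupp.single_eq_same, Nat.factorization_eq_zero_of_not_dvd hm',
      add_zero]
  have hP : Nat.card (P : Subgroup (K ≃ₐ[k] K)) = p ^ a := by
    rw [Sylow.card_eq_multiplicity, hcard, hfact]
  have h2 : finrank (IntermediateField.fixedField (P : Subgroup (K ≃ₐ[k] K))) K = p ^ a := by
    rw [IntermediateField.finrank_fixedField_eq_card, hP]
  refine ⟨IntermediateField.fixedField (P : Subgroup (K ≃ₐ[k] K)), ?_, h2⟩
  have h3 := Module.finrank_mul_finrank k
    (IntermediateField.fixedField (P : Subgroup (K ≃ₐ[k] K))) K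
  rw [h2, hK, mul_comm] at h3
  exact Nat.eq_of_mul_eq_mul_left (pow_pos hp.pos a) h3

/-- The fixed field of a normal subgroup of index `p` in a `p`-group layer: `K₁/k` is Galois of
degree `p` (hence cyclic), `[K : K₁] = p ^ n`. -/
theorem exists_index_p_field {p : ℕ} (hp : p.Prime) {n : ℕ} (hK : finrank k K = p ^ (n + 1)) :
    ∃ K₁ : IntermediateField k K, IsGalois k K₁ ∧ finrank k K₁ = p ∧ finrank K₁ K = p ^ n ∧
      IsCyclic (K₁ ≃ₐ[k] K₁) := by
  have : Fact p.Prime := ⟨hp⟩
  have hcard : Nat.card (K ≃ₐ[k] K) = p ^ (n + 1) := by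
    rw [IsGalois.card_aut_eq_finrank, hK]
  obtain ⟨N, hN⟩ := Sylow.exists_subgroup_card_pow_prime (G := K ≃ₐ[k] K) p (n := n)
    (by rw [hcard]; exact pow_dvd_pow _ (Nat.le_succ n))
  have hidx : N.index = p := by
    have h := N.card_mul_index
    rw [hN, hcard, pow_succ] at h
    exact Nat.eq_of_mul_eq_mul_left (pow_pos hp.pos _) h
  have hminFac : (Nat.card (K ≃ₐ[k] K)).minFac = p := by
    rw [hcard]; exact hp.pow_minFac (Nat.succ_ne_zero n)
  have hNn : N.Normal := Subgroup.normal_of_index_eq_minFac_card (by rw [hidx, hminFac])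
  have h2 : finrank (IntermediateField.fixedField N) K = p ^ n := by
    rw [IntermediateField.finrank_fixedField_eq_card, hN]
  have h1 : finrank k (IntermediateField.fixedField N) = p := by
    have h3 := Module.finrank_mul_finrank k (IntermediateField.fixedField N) K
    rw [h2, hK, pow_succ, mul_comm] at h3
    exact Nat.eq_of_mul_eq_mul_left (pow_pos hp.pos n) h3
  have hG : IsGalois k (IntermediateField.fixedField N) :=
    IsGalois.of_fixedField_normal_subgroup N
  refine ⟨IntermediateField.fixedField N, hG, h1, h2, ?_⟩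
  have hc : Nat.card (IntermediateField.fixedField N ≃ₐ[k] IntermediateField.fixedField N) = p := by
    rw [IsGalois.card_aut_eq_finrank, h1]
  exact isCyclic_of_prime_card hc

end Fields

/-- A primitive root of unity in `k` gives one in any extension. -/
theorem exists_primitiveRoot_of_algebra (k K : Type) [Field k] [Field K] [Algebra k K] {p : ℕ}
    (h : ∃ ζ : k, IsPrimitiveRoot ζ p) : ∃ ζ : K, IsPrimitiveRoot ζ p := by
  obtain ⟨ζ, hζ⟩ := h
  exact ⟨algebraMap k K ζ, hζ.map_of_injective (algebraMap k K).injective⟩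

end Fermat.Agent.S55.H55.LiftAux
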